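import Mathlib

/-! # S52 / I / ChooseA : Hensel adjustment, CRT, valuation -/

set_option autoImplicit false

namespace Fermat.Agent.S52.I

open Polynomial

/-- Hensel-type adjustment: `r ∣ g(n)`, `r ∤ g'(n)`: one of `n`, `n + r` satisfies `r^2 ∤ g`
(`Polynomial.binomExpansion` / `Polynomial.evalSubFactor`: `g(n + r) = g(n) + r g'(n) + r² (..)`). -/
theorem exists_not_sq_dvd (g : ℤ[X]) {r : ℕ} (hr : r.Prime) {n : ℤ} (h0 : (r : ℤ) ∣ g.eval n)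
    (h1 : ¬ (r : ℤ) ∣ (derivative g).eval n) :
    ∃ n' : ℤ, (r : ℤ) ∣ n' - n ∧ (r : ℤ) ∣ g.eval n' ∧ ¬ (r : ℤ) ^ 2 ∣ g.eval n' := by
  have hr0 : (r : ℤ) ≠ 0 := by exact_mod_cast hr.ne_zero
  by_cases h2 : (r : ℤ) ^ 2 ∣ g.eval n
  · obtain ⟨k, hk⟩ := g.binomExpansion n (r : ℤ)
    refine ⟨n + r, by simp, ?_, ?_⟩
    · rw [hk]
      exact dvd_add (dvd_add h0 (Dvd.intro_left _ rfl)) (Dvd.intro_left (k * r) (by ring))
    · intro h3
      rw [hk] at h3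
      have h4 : (r : ℤ) ^ 2 ∣ (derivative g).eval n * r := by
        have h5 := dvd_sub (dvd_sub h3 (Dvd.intro_left k rfl)) h2
        have e : eval n g + eval n (derivative g) * (r : ℤ) + k * (r : ℤ) ^ 2 - k * (r : ℤ) ^ 2 -
            eval n g = eval n (derivative g) * (r : ℤ) := by ring
        rwa [e] at h5
      rw [pow_two] at h4
      exact h1 (Int.dvd_of_mul_dvd_mul_right hr0 h4)
  · exact ⟨n, by simp, h0, h2⟩

/-- CRT for three pairwise coprime moduli -/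
theorem exists_crt3 {M m₁ m₂ : ℤ} (h1 : IsCoprime M m₁) (h2 : IsCoprime M m₂) (h12 : IsCoprime m₁ m₂) (n₁ n₂ : ℤ) :
    ∃ t : ℤ, M ∣ t ∧ m₁ ∣ t - n₁ ∧ m₂ ∣ t - n₂ := by
  -- `a (M m₂) + b m₁ = 1`, `c (M m₁) + d m₂ = 1`
  obtain ⟨a, b, hab⟩ : IsCoprime (M * m₂) m₁ := IsCoprime.mul_left h1 h12.symm
  obtain ⟨c, d, hcd⟩ : IsCoprime (M * m₁) m₂ := IsCoprime.mul_left h2 h12
  refine ⟨a * (M * m₂) * n₁ + c * (M * m₁) * n₂, ⟨a * m₂ * n₁ + c * m₁ * n₂, by ring⟩,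
    ⟨-b * n₁ + c * M * n₂, ?_⟩, ⟨a * M * n₁ - d * n₂, ?_⟩⟩
  · linear_combination n₁ * hab
  · linear_combination n₂ * hcd

/-- `v_r(Δ famD⁵) = 0 + 5·1 = 5`. -/
theorem not_three_dvd_padicValInt {r : ℕ} (hr : r.Prime) {Δ d : ℤ} (hΔ : ¬ (r : ℤ) ∣ Δ) (h1 : (r : ℤ) ∣ d)
    (h2 : ¬ (r : ℤ) ^ 2 ∣ d) : ¬ 3 ∣ padicValInt r (Δ * d ^ 5) := by
  have : Fact r.Prime := ⟨hr⟩
  have hΔ0 : Δ ≠ 0 := by rintro rfl; exact hΔ (dvd_zero _)
  have hd0 : d ≠ 0 := by rintro rfl; exact h2 (dvd_zero _)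
  have e1 : padicValInt r Δ = 0 := padicValInt.eq_zero_of_not_dvd hΔ
  have e2 : padicValInt r d = 1 := by
    have ha : 1 ≤ padicValInt r d := by
      have := (padicValInt_dvd_iff (p := r) 1 d).1 (by simpa using h1)
      rcases this with h | h
      · exact absurd h hd0
      · exact h
    have hb : ¬ 2 ≤ padicValInt r d := by
      intro h
      exact h2 ((padicValInt_dvd_iff (p := r) 2 d).2 (Or.inr h))
    omega
  have e3 : padicValInt r (d ^ 5) = 5 := by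
    have hm := @padicValInt.mul r _
    rw [show d ^ 5 = d * (d * (d * (d * d))) by ring, hm hd0 (by positivity), hm hd0 (by positivity),
      hm hd0 (by positivity), hm hd0 hd0, e2]
  rw [padicValInt.mul hΔ0 (pow_ne_zero 5 hd0), e1, e3]
  norm_num

end Fermat.Agent.S52.I
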