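import Fermat.Agent.S52.Fam

/-! # S52 / I / ChooseB : `famD`, `famC6` as polynomials -/

set_option autoImplicit false

namespace Fermat.Agent.S52.I

open Polynomial Fermat.Agent.S52

/-- `famD` as a polynomial in `t` -/
noncomputable def famDP (c4 c6 D : ℤ) : ℤ[X] := famD (C c4) (C c6) (C D) X

/-- `famC6` as a polynomial in `t` -/
noncomputable def famC6P (c4 c6 D : ℤ) : ℤ[X] := famC6 (C c4) (C c6) (C D) X

/-- `map_famD (evalRingHom t)`. -/
theorem famDP_eval (c4 c6 D t : ℤ) : (famDP c4 c6 D).eval t = famD c4 c6 D t := by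
  have h := map_famD (evalRingHom t) (C c4) (C c6) (C D) X
  simpa [famDP] using h

theorem famC6P_eval (c4 c6 D t : ℤ) : (famC6P c4 c6 D).eval t = famC6 c4 c6 D t := by
  have h := map_famC6 (evalRingHom t) (C c4) (C c6) (C D) X
  simpa [famC6P] using h

/-- `map_famD (aeval θ).toRingHom`. -/
theorem famDP_aeval (c4 c6 D : ℤ) (θ : ℝ) : aeval θ (famDP c4 c6 D) = famD (c4 : ℝ) (c6 : ℝ) (D : ℝ) θ := by
  have h := map_famD (aeval θ : ℤ[X] →ₐ[ℤ] ℝ).toRingHom (C c4) (C c6) (C D) X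
  simpa [famDP] using h

theorem famC6P_aeval (c4 c6 D : ℤ) (θ : ℝ) :
    aeval θ (famC6P c4 c6 D) = famC6 (c4 : ℝ) (c6 : ℝ) (D : ℝ) θ := by
  have h := map_famC6 (aeval θ : ℤ[X] →ₐ[ℤ] ℝ).toRingHom (C c4) (C c6) (C D) X
  simpa [famC6P] using h

lemma ChooseB_derivative (c4 c6 D : ℤ) :
    derivative (famDP c4 c6 D) = famDd (C c4) (C c6) (C D) X := by
  have h0 : famD_0 (C c4) (C c6) (C D) = C (famD_0 c4 c6 D) := by simp [famD_0]
  have h1 : famD_1 (C c4) (C c6) (C D) = C (famD_1 c4 c6 D) := by simp [famD_1]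
  have h2 : famD_2 (C c4) (C c6) (C D) = C (famD_2 c4 c6 D) := by simp [famD_2]
  have h3 : famD_3 (C c4) (C c6) (C D) = C (famD_3 c4 c6 D) := by simp [famD_3]
  have h4 : famD_4 (C c4) (C c6) (C D) = C (famD_4 c4 c6 D) := by simp [famD_4]
  have h5 : famD_5 (C c4) (C c6) (C D) = C (famD_5 c4 c6 D) := by simp [famD_5]
  have h6 : famD_6 (C c4) (C c6) (C D) = C (famD_6 c4 c6 D) := by simp [famD_6]
  have h7 : famD_7 (C c4) (C c6) (C D) = C (famD_7 c4 c6 D) := by simp [famD_7]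
  have h8 : famD_8 (C c4) (C c6) (C D) = C (famD_8 c4 c6 D) := by simp [famD_8]
  have h9 : famD_9 (C c4) (C c6) (C D) = C (famD_9 c4 c6 D) := by simp [famD_9]
  have h10 : famD_10 (C c4) (C c6) (C D) = C (famD_10 c4 c6 D) := by simp [famD_10]
  have h11 : famD_11 (C c4) (C c6) (C D) = C (famD_11 c4 c6 D) := by simp [famD_11]
  have h12 : famD_12 (C c4) (C c6) (C D) = C (famD_12 c4 c6 D) := by simp [famD_12]
  rw [famDP, famD, famDd, h0, h1, h2, h3, h4, h5, h6, h7, h8, h9, h10, h11, h12]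
  simp only [derivative_add, derivative_mul, derivative_C, derivative_X_pow, derivative_X,
    zero_mul, zero_add, mul_one, Nat.cast_ofNat, map_ofNat]
  ring

/-- unfold `famDP famD famDd`, the coefficients `famD_k (C c4) (C c6) (C D)` are constants: first prove
`famD_k (C c4) (C c6) (C D) = C (famD_k c4 c6 D)` (`simp [famD_k]`), then `simp [derivative_mul, ...]`, `ring`. -/
theorem famDP_derivative_aeval (c4 c6 D : ℤ) (θ : ℝ) :
    aeval θ (derivative (famDP c4 c6 D)) = famDd (c4 : ℝ) (c6 : ℝ) (D : ℝ) θ := by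
  rw [ChooseB_derivative]
  have h := map_famDd (aeval θ : ℤ[X] →ₐ[ℤ] ℝ).toRingHom (C c4) (C c6) (C D) X
  simpa using h

end Fermat.Agent.S52.I
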