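import Mathlib
import Fermat.Prelude.Def_FLTPrelim_Ramification

/-! # S52 / I / FrobB : algebraic numbers are units almost everywhere -/

set_option autoImplicit false

namespace Fermat.Agent.S52.I

open Polynomial

local notation "Qb" => AlgebraicClosure ℚ
local notation "GQ" => (AlgebraicClosure ℚ ≃ₐ[ℚ] AlgebraicClosure ℚ)

/-- integral elements lie in every valuation subring. -/
theorem FrobB_mem_of_isIntegral (B : ValuationSubring Qb) (y : Qb) (hy : IsIntegral ℤ y) :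
    y ∈ B := by
  have h1 : IsIntegral B y := hy.tower_top
  have h2 := (IsIntegrallyClosed.isIntegral_iff (R := B) (K := Qb)).1 h1
  obtain ⟨z, rfl⟩ := h2
  exact z.2

/-- an integer prime to `ℓ` is a unit at every place above `ℓ`. -/
theorem FrobB_inv_intCast_mem (A : ValuationSubring Qb) {ℓ : ℕ} (hA : A.LiesOverPrime ℓ)
    {c : ℤ} (hc : IsCoprime c (ℓ : ℤ)) : ((c : Qb))⁻¹ ∈ A := by
  obtain ⟨u, v, huv⟩ := hc
  have hℓ : A.valuation (ℓ : Qb) < 1 := (A.mem_nonunits_iff).1 hA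
  have hint : ∀ n : ℤ, A.valuation (n : Qb) ≤ 1 := fun n =>
    (A.valuation_le_one_iff _).2 (intCast_mem A n)
  have h1 : (u : Qb) * c + v * ℓ = 1 := by exact_mod_cast congrArg (Int.cast : ℤ → Qb) huv
  rw [← A.valuation_le_one_iff, map_inv₀]
  by_contra hlt
  have hc1 : A.valuation (c : Qb) < 1 := by
    rcases lt_or_eq_of_le (hint c) with h | h
    · exact h
    · exact absurd (by rw [h, inv_one]) hlt
  have h2 : A.valuation ((u : Qb) * c) < 1 := by
    rw [map_mul]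
    exact mul_lt_one_of_nonneg_of_lt_one_right (hint u) zero_le hc1
  have h3 : A.valuation ((v : Qb) * ℓ) < 1 := by
    rw [map_mul]
    exact mul_lt_one_of_nonneg_of_lt_one_right (hint v) zero_le hℓ
  have h4 := A.valuation.map_add_lt h2 h3
  rw [h1, map_one] at h4
  exact lt_irrefl _ h4

/-- one half of the statement. -/
theorem FrobB_exists_finset_mem (x : Qb) :
    ∃ S : Finset ℕ, ∀ ℓ : ℕ, ℓ.Prime → ℓ ∉ S → ∀ A : ValuationSubring Qb, A.LiesOverPrime ℓ →
      x ∈ A := by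
  have halg : IsAlgebraic ℤ x := by
    have : IsAlgebraic ℚ x := (AlgebraicClosure.isAlgebraic ℚ).isAlgebraic x
    exact (IsFractionRing.isAlgebraic_iff ℤ ℚ Qb).2 this
  obtain ⟨c, hc0, hc⟩ := halg.exists_integral_multiple
  refine ⟨c.natAbs.primeFactors, fun ℓ hℓ hS A hA => ?_⟩
  have hnd : ¬ ℓ ∣ c.natAbs := fun h =>
    hS (Nat.mem_primeFactors.2 ⟨hℓ, h, by simpa using hc0⟩)
  have hcop : IsCoprime c (ℓ : ℤ) := by
    rw [Int.isCoprime_iff_gcd_eq_one, Int.gcd_eq_natAbs, Int.natAbs_natCast]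
    exact ((Nat.Prime.coprime_iff_not_dvd hℓ).2 hnd).symm
  have h1 := FrobB_inv_intCast_mem A hA hcop
  have h2 := FrobB_mem_of_isIntegral A _ hc
  have hcQ : (c : Qb) ≠ 0 := by exact_mod_cast hc0
  have h3 : x = ((c : Qb))⁻¹ * (c • x) := by
    rw [zsmul_eq_mul, inv_mul_cancel_left₀ hcQ]
  rw [h3]
  exact A.mul_mem _ _ h1 h2

/-- a nonzero algebraic number is a unit at all places outside a finite set of primes (integral polynomial `c_n x^n + .. + c_0 = 0`, `c_n c_0 ≠ 0`;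
`S` = prime divisors of `c_n c_0`). -/
theorem exists_finset_unit (x : Qb) (hx : x ≠ 0) :
    ∃ S : Finset ℕ, ∀ ℓ : ℕ, ℓ.Prime → ℓ ∉ S → ∀ A : ValuationSubring Qb, A.LiesOverPrime ℓ → x ∈ A ∧ x⁻¹ ∈ A := by
  classical
  obtain ⟨S₁, h₁⟩ := FrobB_exists_finset_mem x
  obtain ⟨S₂, h₂⟩ := FrobB_exists_finset_mem x⁻¹
  refine ⟨S₁ ∪ S₂, fun ℓ hℓ hS A hA => ⟨h₁ ℓ hℓ (fun h => hS (Finset.mem_union_left _ h)) A hA,
    h₂ ℓ hℓ (fun h => hS (Finset.mem_union_right _ h)) A hA⟩⟩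

end Fermat.Agent.S52.I
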