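import Fermat.Agent.GR.G.Main
import Fermat.Prelude.Def_GaloisRep_ComplexConjugation

/-! # S52 / I / FrobC : primes whose Frobenius is complex conjugation -/

set_option autoImplicit false

namespace Fermat.Agent.S52.I

open Polynomial

local notation "Qb" => AlgebraicClosure ℚ
local notation "GQ" => (AlgebraicClosure ℚ ≃ₐ[ℚ] AlgebraicClosure ℚ)

/-- every finite set of algebraic numbers lies in a finite Galois extension -/
theorem exists_galois_containing (s : Finset Qb) :
    ∃ F : IntermediateField ℚ Qb, FiniteDimensional ℚ F ∧ IsGalois ℚ F ∧ ∀ x ∈ s, x ∈ F := by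
  have hfd : FiniteDimensional ℚ (IntermediateField.adjoin ℚ (s : Set Qb)) :=
    IntermediateField.finiteDimensional_adjoin
      (fun x _ => ((AlgebraicClosure.isAlgebraic ℚ).isAlgebraic x).isIntegral)
  have halg : Algebra.IsAlgebraic ℚ Qb := AlgebraicClosure.isAlgebraic ℚ
  have hcl : IsAlgClosure ℚ Qb := ⟨inferInstance, inferInstance⟩
  have hn : Normal ℚ Qb := IsAlgClosure.normal ℚ Qb
  refine ⟨IntermediateField.normalClosure ℚ (IntermediateField.adjoin ℚ (s : Set Qb)) Qb,
    inferInstance, ?_, fun x hx => ?_⟩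
  · have : Normal ℚ (IntermediateField.normalClosure ℚ (IntermediateField.adjoin ℚ (s : Set Qb)) Qb) :=
      normalClosure.normal ℚ _ Qb
    exact { }
  · exact IntermediateField.le_normalClosure _ (IntermediateField.subset_adjoin ℚ _ hx)

/-- complex conjugation moves a square root of `-1`. -/
theorem FrobC_conj_ne {i : Qb} (hi : i ^ 2 = -1) : complexConjugation i ≠ i := by
  intro h
  have h1 := complexEmbedding_complexConjugation i
  rw [h] at h1
  obtain ⟨r, hr⟩ := Complex.conj_eq_iff_real.1 h1.symm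
  have h2 : (complexEmbedding i) ^ 2 = -1 := by
    rw [← map_pow, hi, map_neg, map_one]
  rw [hr] at h2
  have h3 : r ^ 2 = -1 := by exact_mod_cast h2
  nlinarith [sq_nonneg r]

/-- in a group, if `g ^ 2 = 1`, `g ≠ 1` and `h` generates the same subgroup as `g`, then `h = g`. -/
theorem FrobC_eq_of_zpowers_eq {H : Type*} [Group H] {g h : H} (hg : g * g = 1) (hg1 : g ≠ 1)
    (hz : Subgroup.zpowers h = Subgroup.zpowers g) : h = g := by
  have hmem : h ∈ Subgroup.zpowers g := hz ▸ Subgroup.mem_zpowers h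
  obtain ⟨k, rfl⟩ := Subgroup.mem_zpowers_iff.1 hmem
  have hg2 : g ^ (2 : ℤ) = 1 := by
    rw [zpow_two, hg]
  rcases Int.even_or_odd' k with ⟨m, rfl | rfl⟩
  · exfalso
    rw [zpow_mul, hg2, one_zpow, Subgroup.zpowers_one_eq_bot] at hz
    exact hg1 (Subgroup.zpowers_eq_bot.1 hz.symm)
  · rw [zpow_add, zpow_mul, hg2, one_zpow, one_mul, zpow_one]

/-- **primes with Frobenius = complex conjugation on a given finite set.**  `exists_frobenius_zpowers_eq` for `F ∋ s ∪ {i}`, `σ = complexConjugation`: `σ|F` has order `2`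
(`σ i = -i`), so the only generator of `⟨σ|F⟩` is `σ|F`. -/
theorem exists_frobenius_eq_conj (s : Finset Qb) (S : Finset ℕ) :
    ∃ (ℓ : ℕ) (A : ValuationSubring Qb) (τ : GQ), ℓ.Prime ∧ ℓ ∉ S ∧ A.LiesOverPrime ℓ ∧ A.IsFrobeniusAt τ ℓ ∧
      ∀ x ∈ s, τ x = complexConjugation x := by
  classical
  obtain ⟨i, hi⟩ := IsAlgClosed.exists_pow_nat_eq (-1 : Qb) (n := 2) (by norm_num)
  obtain ⟨F, hfd, hgal, hF⟩ := exists_galois_containing (insert i s)
  obtain ⟨ℓ, A, τ, hℓ, hS, hA, hτ, hz⟩ :=
    Fermat.Agent.GR.G.exists_frobenius_zpowers_eq F S complexConjugation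
  refine ⟨ℓ, A, τ, hℓ, hS, hA, hτ, fun x hx => ?_⟩
  have hg : AlgEquiv.restrictNormalHom F complexConjugation *
      AlgEquiv.restrictNormalHom F complexConjugation = 1 := by
    rw [← map_mul, complexConjugation_mul_self, map_one]
  have hg1 : AlgEquiv.restrictNormalHom F complexConjugation ≠ 1 := by
    intro h
    have h1 := AlgEquiv.restrictNormal_commutes complexConjugation F
      ⟨i, hF i (Finset.mem_insert_self _ _)⟩
    have h2 : complexConjugation.restrictNormal F = 1 := h
    rw [h2] at h1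
    exact FrobC_conj_ne hi h1.symm
  have heq := FrobC_eq_of_zpowers_eq hg hg1 hz
  have hxF : x ∈ F := hF x (Finset.mem_insert_of_mem hx)
  have h1 := AlgEquiv.restrictNormal_commutes complexConjugation F ⟨x, hxF⟩
  have h2 := AlgEquiv.restrictNormal_commutes τ F ⟨x, hxF⟩
  have h3 : τ.restrictNormal F = complexConjugation.restrictNormal F := heq
  rw [h3] at h2
  exact h2.symm.trans h1

end Fermat.Agent.S52.I
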