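import Fermat.Agent.S52.I.FrobD
import Mathlib.FieldTheory.Finite.Basic

/-! # S52 / I / FrobE : quadratic characters through Frobenius -/

set_option autoImplicit false

namespace Fermat.Agent.S52.I

open Polynomial

local notation "Qb" => AlgebraicClosure ℚ
local notation "GQ" => (AlgebraicClosure ℚ ≃ₐ[ℚ] AlgebraicClosure ℚ)

variable {ℓ : ℕ} {A : ValuationSubring Qb} {τ : GQ}

theorem FrobE_res_eq_zero (a : A) : IsLocalRing.residue A a = 0 ↔ (a : Qb) ∈ A.nonunits := by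
  rw [IsLocalRing.residue_eq_zero_iff, ValuationSubring.mem_nonunits_iff_exists_mem_maximalIdeal]
  exact ⟨fun h => ⟨a.2, h⟩, fun ⟨_, h⟩ => h⟩

theorem FrobE_res_intCast_eq_zero (hℓ : ℓ.Prime) (hA : A.LiesOverPrime ℓ) (n : ℤ) :
    ((n : ℤ) : IsLocalRing.ResidueField A) = 0 ↔ (ℓ : ℤ) ∣ n := by
  rw [← intCast_mem_nonunits_iff hℓ hA n, ← map_intCast (IsLocalRing.residue A) n,
    FrobE_res_eq_zero]
  simp

/-- `γ^2 ≡ N`, `γ` a unit, `τ γ = γ`: `N` is a square mod `ℓ`. -/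
theorem isSquare_of_fixed (hℓ : ℓ.Prime) (hA : A.LiesOverPrime ℓ) (hτ : A.IsFrobeniusAt τ ℓ) {γ : Qb} (hγ : γ ∈ A)
    (hfix : τ γ = γ) {N : ℤ} (hN : γ ^ 2 - (N : Qb) ∈ A.nonunits) : IsSquare ((N : ℤ) : ZMod ℓ) := by
  obtain ⟨n, hn⟩ := exists_int_of_fixed hℓ hA hτ hγ hfix
  set g : A := ⟨γ, hγ⟩ with hg
  have h1 : IsLocalRing.residue A (g - (n : A)) = 0 :=
    (FrobE_res_eq_zero _).2 (by simpa [hg] using hn)
  have h2 : IsLocalRing.residue A (g ^ 2 - (N : A)) = 0 :=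
    (FrobE_res_eq_zero _).2 (by simpa [hg] using hN)
  rw [map_sub, sub_eq_zero, map_intCast] at h1
  rw [map_sub, sub_eq_zero, map_intCast, map_pow, h1] at h2
  have h3 : (((N - n ^ 2 : ℤ)) : IsLocalRing.ResidueField A) = 0 := by
    push_cast
    rw [h2, sub_self]
  have h5 : (ℓ : ℤ) ∣ N - n ^ 2 := (FrobE_res_intCast_eq_zero hℓ hA _).1 h3
  refine ⟨(n : ZMod ℓ), ?_⟩
  have h6 := (ZMod.intCast_zmod_eq_zero_iff_dvd _ _).2 h5
  push_cast at h6
  linear_combination h6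

/-- `γ^2 ≡ N`, `γ` a unit, `τ γ = -γ`, `ℓ` odd: `N` is not a square mod `ℓ`.
(`hγ0 : γ ≠ 0` ADDED: for `γ = 0`, `N = 0` the original statement is false, since `0⁻¹ = 0 ∈ A`.) -/
theorem not_isSquare_of_neg (hℓ : ℓ.Prime) (hℓ2 : ℓ ≠ 2) (hA : A.LiesOverPrime ℓ) (hτ : A.IsFrobeniusAt τ ℓ) {γ : Qb}
    (hγ0 : γ ≠ 0)
    (hγ : γ ∈ A) (hγ' : γ⁻¹ ∈ A) (hneg : τ γ = -γ) {N : ℤ} (hN : γ ^ 2 - (N : Qb) ∈ A.nonunits) :
    ¬ IsSquare ((N : ℤ) : ZMod ℓ) := by
  haveI : Fact ℓ.Prime := ⟨hℓ⟩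
  rintro ⟨m, hm⟩
  obtain ⟨n, rfl⟩ := ZMod.intCast_surjective m
  have hdvd : (ℓ : ℤ) ∣ N - n ^ 2 := by
    rw [← ZMod.intCast_zmod_eq_zero_iff_dvd]
    push_cast
    rw [hm]
    ring
  have hNn : ((N : ℤ) : IsLocalRing.ResidueField A) = (n : IsLocalRing.ResidueField A) ^ 2 := by
    have := (FrobE_res_intCast_eq_zero hℓ hA _).2 hdvd
    push_cast at this
    exact sub_eq_zero.1 this
  -- Fermat's little theorem in the residue field
  have hfl : ∀ j : ℤ, (j : IsLocalRing.ResidueField A) ^ ℓ = (j : IsLocalRing.ResidueField A) := by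
    intro j
    have h1 : (ℓ : ℤ) ∣ j ^ ℓ - j := by
      rw [← ZMod.intCast_zmod_eq_zero_iff_dvd]
      push_cast
      rw [ZMod.pow_card, sub_self]
    have := (FrobE_res_intCast_eq_zero hℓ hA _).2 h1
    push_cast at this
    exact sub_eq_zero.1 this
  set g : A := ⟨γ, hγ⟩ with hg
  set g' : A := ⟨γ⁻¹, hγ'⟩ with hg'
  have h2 : IsLocalRing.residue A (g ^ 2 - (N : A)) = 0 :=
    (FrobE_res_eq_zero _).2 (by simpa [hg] using hN)
  rw [map_sub, sub_eq_zero, map_intCast, map_pow, hNn] at h2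
  have hfrob : IsLocalRing.residue A (-g - g ^ ℓ) = 0 := by
    refine (FrobE_res_eq_zero _).2 ?_
    have := frob_sub_pow_mem hA hτ hγ
    rw [hneg] at this
    simpa [hg] using this
  rw [map_sub, sub_eq_zero, map_neg, map_pow] at hfrob
  have hunit : IsLocalRing.residue A g * IsLocalRing.residue A g' = 1 := by
    rw [← map_mul]
    have : g * g' = 1 := by
      apply Subtype.ext
      simp [hg, hg', hγ0]
    rw [this, map_one]
  have hg0 : IsLocalRing.residue A g ≠ 0 := left_ne_zero_of_mul_eq_one hunit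
  -- `g = ± n`, so `g ^ ℓ = g`
  have hpow : IsLocalRing.residue A g ^ ℓ = IsLocalRing.residue A g := by
    rcases sq_eq_sq_iff_eq_or_eq_neg.1 h2 with h | h
    · rw [h, hfl]
    · have := hfl (-n)
      push_cast at this
      rw [h, this]
  rw [hpow] at hfrob
  have h2g : (2 : IsLocalRing.ResidueField A) * IsLocalRing.residue A g = 0 := by
    linear_combination -hfrob
  have h20 : ((2 : ℤ) : IsLocalRing.ResidueField A) = 0 := by
    push_cast
    exact (mul_eq_zero.1 h2g).resolve_right hg0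
  have h3 : (ℓ : ℤ) ∣ 2 := (FrobE_res_intCast_eq_zero hℓ hA _).1 h20
  have h4 : ℓ ∣ 2 := by exact_mod_cast h3
  exact hℓ2 ((Nat.prime_dvd_prime_iff_eq hℓ Nat.prime_two).1 h4)

end Fermat.Agent.S52.I
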