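import Fermat.Agent.S52.I.FrobA
import Fermat.Agent.S52.I.FrobB
import Fermat.Agent.S52.I.FrobC
import Fermat.Agent.S52.I.FrobE

/-! # S52 / I / FrobF : the prime attached to a real simple root -/

set_option autoImplicit false

namespace Fermat.Agent.S52.I

open Polynomial

local notation "Qb" => AlgebraicClosure ℚ
local notation "GQ" => (AlgebraicClosure ℚ ≃ₐ[ℚ] AlgebraicClosure ℚ)

lemma FrobF_embed_aeval (x : Qb) {θ : ℝ} (h : complexEmbedding x = (θ : ℂ)) (P : ℤ[X]) :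
    complexEmbedding (aeval x P) = ((aeval θ P : ℝ) : ℂ) := by
  have h1 : complexEmbedding (aeval x P) = aeval (complexEmbedding x) P :=
    (Polynomial.aeval_algHom_apply (complexEmbedding.toRingHom.toIntAlgHom) x P).symm
  have h2 : ((aeval θ P : ℝ) : ℂ) = aeval (θ : ℂ) P :=
    (Polynomial.aeval_algHom_apply (Complex.ofRealHom.toIntAlgHom) θ P).symm
  rw [h1, h2, h]

lemma FrobF_exists_mem (x : Qb) :
    ∃ S : Finset ℕ, ∀ ℓ : ℕ, ℓ.Prime → ℓ ∉ S → ∀ A : ValuationSubring Qb, A.LiesOverPrime ℓ → x ∈ A := by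
  by_cases hx : x = 0
  · exact ⟨∅, fun ℓ _ _ A _ => hx ▸ A.zero_mem⟩
  · obtain ⟨S, hS⟩ := exists_finset_unit x hx
    exact ⟨S, fun ℓ h1 h2 A hA => (hS ℓ h1 h2 A hA).1⟩

lemma FrobF_add_mem {A : ValuationSubring Qb} {a b : Qb} (ha : a ∈ A.nonunits) (hb : b ∈ A.nonunits) :
    a + b ∈ A.nonunits := by
  obtain ⟨ha', ha''⟩ := ValuationSubring.mem_nonunits_iff_exists_mem_maximalIdeal.1 ha
  obtain ⟨hb', hb''⟩ := ValuationSubring.mem_nonunits_iff_exists_mem_maximalIdeal.1 hb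
  exact ValuationSubring.mem_nonunits_iff_exists_mem_maximalIdeal.2
    ⟨A.add_mem _ _ ha' hb', (IsLocalRing.maximalIdeal A).add_mem ha'' hb''⟩

lemma FrobF_neg_mem {A : ValuationSubring Qb} {a : Qb} (ha : a ∈ A.nonunits) : -a ∈ A.nonunits := by
  obtain ⟨ha', ha''⟩ := ValuationSubring.mem_nonunits_iff_exists_mem_maximalIdeal.1 ha
  exact ValuationSubring.mem_nonunits_iff_exists_mem_maximalIdeal.2
    ⟨A.neg_mem _ ha', (IsLocalRing.maximalIdeal A).neg_mem ha''⟩

lemma FrobF_zero_mem (A : ValuationSubring Qb) : (0 : Qb) ∈ A.nonunits :=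
  ValuationSubring.mem_nonunits_iff_exists_mem_maximalIdeal.2
    ⟨A.zero_mem, (IsLocalRing.maximalIdeal A).zero_mem⟩

lemma FrobF_not_mem_of_unit {A : ValuationSubring Qb} {a : Qb} (ha' : a⁻¹ ∈ A) (h0 : a ≠ 0) :
    a ∉ A.nonunits := by
  intro h
  obtain ⟨ha, hm⟩ := ValuationSubring.mem_nonunits_iff_exists_mem_maximalIdeal.1 h
  have hu : IsUnit (⟨a, ha⟩ : A) := by
    refine IsUnit.of_mul_eq_one (⟨a⁻¹, ha'⟩ : A) ?_
    apply Subtype.ext
    exact mul_inv_cancel₀ h0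
  exact (IsLocalRing.mem_maximalIdeal _).1 hm hu

lemma FrobF_aeval_sub {A : ValuationSubring Qb} {x : Qb} (hx : x ∈ A) (n : ℤ)
    (h : x - (n : Qb) ∈ A.nonunits) (P : ℤ[X]) :
    aeval x P - ((P.eval n : ℤ) : Qb) ∈ A.nonunits := by
  obtain ⟨h', hm⟩ := ValuationSubring.mem_nonunits_iff_exists_mem_maximalIdeal.1 h
  set xA : A := ⟨x, hx⟩ with hxA
  have hd : xA - (n : A) ∣ (P.map (Int.castRingHom A)).eval xA - (P.map (Int.castRingHom A)).eval (n : A) :=
    Polynomial.sub_dvd_eval_sub _ _ _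
  have hm' : xA - (n : A) ∈ IsLocalRing.maximalIdeal A := by
    have : (xA - (n : A)) = ⟨x - (n : Qb), h'⟩ := by
      apply Subtype.ext
      simp [hxA]
    rw [this]; exact hm
  have hmem := Ideal.mem_of_dvd _ hd hm'
  have hcoe : (((P.map (Int.castRingHom A)).eval xA - (P.map (Int.castRingHom A)).eval (n : A) : A) : Qb)
      = aeval x P - ((P.eval n : ℤ) : Qb) := by
    have e1 : (((P.map (Int.castRingHom A)).eval xA : A) : Qb) = aeval x P := by
      rw [Polynomial.eval_map, Polynomial.aeval_def]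
      have := Polynomial.hom_eval₂ P (Int.castRingHom A) A.subtype xA
      rw [show (A.subtype.comp (Int.castRingHom A)) = algebraMap ℤ Qb from RingHom.ext_int _ _] at this
      exact this
    have e2 : (((P.map (Int.castRingHom A)).eval (n : A) : A) : Qb) = ((P.eval n : ℤ) : Qb) := by
      have h1 : (P.map (Int.castRingHom A)).eval (n : A) = ((P.eval n : ℤ) : A) := by
        rw [Polynomial.eval_map]
        have := Polynomial.hom_eval₂ P (RingHom.id ℤ) (Int.castRingHom A) n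
        rw [RingHom.comp_id] at this
        simp [Polynomial.eval₂_id] at this ⊢
      rw [h1]
      simp
    rw [← e1, ← e2]
    rfl
  rw [← hcoe]
  exact ValuationSubring.coe_mem_nonunits_iff.2 hmem

/-- **the prime attached to a real simple root.** -/
theorem exists_prime_of_real_root (g T : ℤ[X]) {θ : ℝ} (hg : aeval θ g = 0) (hg' : aeval θ (derivative g) ≠ 0)
    (hT : aeval θ T ≠ 0) (S : Finset ℕ) :
    ∃ (r : ℕ) (n : ℤ), r.Prime ∧ r ∉ S ∧ ¬ IsSquare (-1 : ZMod r) ∧ IsSquare (2 : ZMod r) ∧ IsSquare (3 : ZMod r) ∧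
      (r : ℤ) ∣ g.eval n ∧ ¬ (r : ℤ) ∣ (derivative g).eval n ∧
      (IsSquare (((T.eval n : ℤ)) : ZMod r) ↔ 0 < aeval θ T) := by
  classical
  have hg0 : g ≠ 0 := by
    rintro rfl
    simp at hg'
  obtain ⟨x, hx⟩ := exists_of_real_root hg0 hg
  have hcx : complexConjugation x = x := conj_eq_self_of_real hx
  have hinj : Function.Injective complexEmbedding := complexEmbedding.toRingHom.injective
  -- the algebraic numbers
  have hgx : aeval x g = 0 := by
    apply hinj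
    rw [FrobF_embed_aeval x hx, hg, map_zero]; simp
  set z : Qb := aeval x (derivative g) with hz
  have hz0 : z ≠ 0 := by
    intro h0
    have := FrobF_embed_aeval x hx (derivative g)
    rw [← hz, h0, map_zero] at this
    exact hg' (by exact_mod_cast this.symm)
  set y : Qb := aeval x T with hy
  obtain ⟨γ, hγ2, hγpos, hγneg⟩ := exists_sqrt y (FrobF_embed_aeval x hx T) hT
  have hy0 : y ≠ 0 := by
    intro h0
    have := FrobF_embed_aeval x hx T
    rw [← hy, h0, map_zero] at this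
    exact hT (by exact_mod_cast this.symm)
  have hγ0 : γ ≠ 0 := by
    rintro rfl
    exact hy0 (by rw [← hγ2]; simp)
  obtain ⟨i, hi2, -, hineg⟩ := exists_sqrt (-1 : Qb) (v := -1) (by simp) (by norm_num)
  obtain ⟨s2, hs2, hs2pos, -⟩ := exists_sqrt (2 : Qb) (v := 2) (by rw [map_ofNat]; simp) (by norm_num)
  obtain ⟨s3, hs3, hs3pos, -⟩ := exists_sqrt (3 : Qb) (v := 3) (by rw [map_ofNat]; simp) (by norm_num)
  have hi0 : i ≠ 0 := by
    rintro rfl
    norm_num at hi2
  have hs20 : s2 ≠ 0 := by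
    rintro rfl
    norm_num at hs2
  have hs30 : s3 ≠ 0 := by
    rintro rfl
    norm_num at hs3
  obtain ⟨Sx, hSx⟩ := FrobF_exists_mem x
  obtain ⟨Sz, hSz⟩ := exists_finset_unit z hz0
  obtain ⟨Sγ, hSγ⟩ := exists_finset_unit γ hγ0
  obtain ⟨Si, hSi⟩ := exists_finset_unit i hi0
  obtain ⟨S2, hS2⟩ := exists_finset_unit s2 hs20
  obtain ⟨S3, hS3⟩ := exists_finset_unit s3 hs30
  obtain ⟨r, A, τ, hr, hrS, hA, hτ, hτc⟩ := exists_frobenius_eq_conj {x, γ, i, s2, s3}
    (S ∪ {2} ∪ Sx ∪ Sz ∪ Sγ ∪ Si ∪ S2 ∪ S3)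
  simp only [Finset.mem_union, Finset.mem_singleton, not_or] at hrS
  obtain ⟨⟨⟨⟨⟨⟨⟨hrS, hr2⟩, hrx⟩, hrz⟩, hrγ⟩, hri⟩, hr2'⟩, hr3'⟩ := hrS
  have hxA := hSx r hr hrx A hA
  have hzA := hSz r hr hrz A hA
  have hγA := hSγ r hr hrγ A hA
  have hiA := hSi r hr hri A hA
  have hs2A := hS2 r hr hr2' A hA
  have hs3A := hS3 r hr hr3' A hA
  have hτx : τ x = x := by rw [hτc x (by simp), hcx]
  have hτγ : τ γ = complexConjugation γ := hτc γ (by simp)
  have hτi : τ i = -i := by rw [hτc i (by simp)]; exact hineg (by norm_num)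
  have hτ2 : τ s2 = s2 := by rw [hτc s2 (by simp)]; exact hs2pos (by norm_num)
  have hτ3 : τ s3 = s3 := by rw [hτc s3 (by simp)]; exact hs3pos (by norm_num)
  obtain ⟨n, hn⟩ := exists_int_of_fixed hr hA hτ hxA hτx
  refine ⟨r, n, hr, hrS, ?_, ?_, ?_, ?_, ?_, ?_⟩
  · have := not_isSquare_of_neg hr hr2 hA hτ hi0 hiA.1 hiA.2 hτi (N := -1)
      (by rw [hi2]; simp [FrobF_zero_mem A])
    simpa using this
  · have := isSquare_of_fixed hr hA hτ hs2A.1 hτ2 (N := 2)
      (by rw [hs2]; simp [FrobF_zero_mem A])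
    simpa using this
  · have := isSquare_of_fixed hr hA hτ hs3A.1 hτ3 (N := 3)
      (by rw [hs3]; simp [FrobF_zero_mem A])
    simpa using this
  · have h1 := FrobF_neg_mem (FrobF_aeval_sub hxA n hn g)
    rw [hgx, zero_sub, neg_neg] at h1
    exact (intCast_mem_nonunits_iff hr hA _).1 h1
  · intro hd
    have h1 := (intCast_mem_nonunits_iff hr hA _).2 hd
    have h2 := FrobF_add_mem (FrobF_aeval_sub hxA n hn (derivative g)) h1
    rw [sub_add_cancel] at h2
    exact FrobF_not_mem_of_unit hzA.2 hz0 h2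
  · have hN : γ ^ 2 - ((T.eval n : ℤ) : Qb) ∈ A.nonunits := by
      rw [hγ2]; exact FrobF_aeval_sub hxA n hn T
    constructor
    · intro hsq
      by_contra hneg
      have hlt : aeval θ T < 0 := lt_of_le_of_ne (not_lt.1 hneg) hT
      exact not_isSquare_of_neg hr hr2 hA hτ hγ0 hγA.1 hγA.2 (hτγ.trans (hγneg hlt)) hN hsq
    · intro hpos
      exact isSquare_of_fixed hr hA hτ hγA.1 (hτγ.trans (hγpos hpos)) hN

end Fermat.Agent.S52.I
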