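import Fermat.Agent.S52.FamAlg
import Fermat.Agent.S52.I.FrobF
import Fermat.Agent.S52.I.ChooseA
import Fermat.Agent.S52.I.ChooseB

/-! # S52 / I / ChooseC : the prime attached to a real cusp -/

set_option autoImplicit false

namespace Fermat.Agent.S52.I

open Polynomial Fermat.Agent.S52

/-- one prime: a real cusp `θ` gives a prime `r ∉ S`, `r ≡ -1 mod 24`-like, and a residue `n` with `r ∥ famD(n)` and the quadratic character
of `famC6(n)` mod `r` = the sign of `famC6(θ)`.  `exists_prime_of_real_root` with `g = famDP`, `T = famC6P`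
(`fam_simple` over `ℝ` for `g'(θ) ≠ 0`), then `exists_not_sq_dvd` (`famC6_sub_dvd` to transport the character from `n` to `n'`). -/
theorem exists_prime_of_cusp {c4 c6 D : ℤ} (hD : D ≠ 0) (hrel : c4 ^ 3 - c6 ^ 2 = 1728 * D) {θ : ℝ}
    (h0 : famD (c4 : ℝ) (c6 : ℝ) (D : ℝ) θ = 0) (h6 : famC6 (c4 : ℝ) (c6 : ℝ) (D : ℝ) θ ≠ 0) (S : Finset ℕ) :
    ∃ (r : ℕ) (n : ℤ), r.Prime ∧ r ∉ S ∧ ¬ IsSquare (-1 : ZMod r) ∧ IsSquare (2 : ZMod r) ∧ IsSquare (3 : ZMod r) ∧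
      (r : ℤ) ∣ famD c4 c6 D n ∧ ¬ (r : ℤ) ^ 2 ∣ famD c4 c6 D n ∧
      (IsSquare ((famC6 c4 c6 D n : ℤ) : ZMod r) ↔ 0 < famC6 (c4 : ℝ) (c6 : ℝ) (D : ℝ) θ) := by
  obtain ⟨r, n, hr, hrS, hm1, h2, h3, hd, hd', hsq⟩ :=
    exists_prime_of_real_root (famDP c4 c6 D) (famC6P c4 c6 D) (θ := θ)
      (by rw [famDP_aeval]; exact h0)
      (by
        rw [famDP_derivative_aeval]
        exact fam_simple (by norm_num) _ _ _ _ (by exact_mod_cast hrel) (by exact_mod_cast hD) h0)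
      (by rw [famC6P_aeval]; exact h6) S
  obtain ⟨n', hn', hd1, hd2⟩ := exists_not_sq_dvd (famDP c4 c6 D) hr hd hd'
  rw [famDP_eval] at hd1 hd2
  rw [famC6P_eval, famC6P_aeval] at hsq
  refine ⟨r, n', hr, hrS, hm1, h2, h3, hd1, hd2, ?_⟩
  have e : ((famC6 c4 c6 D n' : ℤ) : ZMod r) = ((famC6 c4 c6 D n : ℤ) : ZMod r) := by
    rw [ZMod.intCast_eq_intCast_iff_dvd_sub]
    have := hn'.trans (famC6_sub_dvd c4 c6 D n' n)
    rwa [← neg_sub, dvd_neg] at this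
  rw [e]
  exact hsq

end Fermat.Agent.S52.I
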