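import Fermat.Prelude.Def_FLTPrelim_Modularity

/-! # S52 / I / SemiA : `c₄, c₆ ≠ 0` for a semistable model -/

set_option autoImplicit false

namespace Fermat.Agent.S52.I

/-- if every prime divisor of `Δ` divides `c₄`, a semistable model has `Δ = ±1` -/
lemma SemiA_natAbs_Δ (W : WeierstrassCurve ℤ) (hW : W.IsSemistableModel)
    (h : ∀ p : ℕ, p.Prime → (p : ℤ) ∣ W.Δ → (p : ℤ) ∣ W.c₄) : W.Δ.natAbs = 1 := by
  by_contra hne
  obtain ⟨p, hp, hpd⟩ := Nat.exists_prime_and_dvd hne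
  have hpΔ : (p : ℤ) ∣ W.Δ := Int.natCast_dvd.2 hpd
  exact hW p hp hpΔ (h p hp hpΔ)

/-- `c₄ = 0`: every prime divisor of `Δ` divides `c₄ = 0`, so `Δ = ±1` (`Int.natAbs`, `Nat.exists_prime_and_dvd`) and `-c₆² = ±1728`
(`WeierstrassCurve.c_relation : 1728 * W.Δ = W.c₄ ^ 3 - W.c₆ ^ 2`): `c₆² = 1728` is impossible (`41² < 1728 < 42²`), `c₆² = -1728` too. -/
theorem c₄_ne_zero (W : WeierstrassCurve ℤ) (hΔ : W.Δ ≠ 0) (hW : W.IsSemistableModel) : W.c₄ ≠ 0 := by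
  intro h0
  have h1 := SemiA_natAbs_Δ W hW (fun p _ _ => by rw [h0]; exact dvd_zero _)
  have hrel := W.c_relation
  rw [h0] at hrel
  rcases Int.natAbs_eq W.Δ with h | h <;> rw [h1] at h <;> rw [h] at hrel
  · push_cast at hrel
    nlinarith [sq_nonneg W.c₆]
  · have h2 : W.c₆ ^ 2 = 1728 := by
      push_cast at hrel
      linarith
    have h3 : W.c₆.natAbs ^ 2 = 1728 := by
      zify
      rw [sq_abs, h2]
    have h4 : W.c₆.natAbs < 42 := by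
      by_contra hc
      push Not at hc
      nlinarith
    have h5 : 41 < W.c₆.natAbs := by
      by_contra hc
      push Not at hc
      have : W.c₆.natAbs ^ 2 ≤ 41 ^ 2 := Nat.pow_le_pow_left hc 2
      omega
    omega

/-- `c₆ = 0`: `c₄³ = 1728 Δ`, a prime `p ∣ Δ` divides `c₄³` hence `c₄`; so `Δ = ±1`, `c₄³ = ±1728`, `c₄ = ±12`, `b₂² = 24 b₄ ± 12`
(`WeierstrassCurve.c₄`), so `b₂² ≡ 12 mod 24`: then `6 ∣ b₂`, `b₂ = 6 k`, `36 k² ≡ 12 mod 24`, `k` odd, `b₂ ≡ 2 mod 4`;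
but `b₂ = a₁² + 4 a₂ ≡ 0, 1 mod 4`.  (Or: `decide`-style on residues: `b₂ mod 24`.) -/
theorem c₆_ne_zero (W : WeierstrassCurve ℤ) (hΔ : W.Δ ≠ 0) (hW : W.IsSemistableModel) : W.c₆ ≠ 0 := by
  intro h0
  have hrel := W.c_relation
  rw [h0] at hrel
  have hrel' : W.c₄ ^ 3 = 1728 * W.Δ := by linarith
  have h1 := SemiA_natAbs_Δ W hW (fun p hp hpd => by
    have : (p : ℤ) ∣ W.c₄ ^ 3 := by
      rw [hrel']
      exact Dvd.dvd.mul_left hpd _
    exact (Nat.prime_iff_prime_int.1 hp).dvd_of_dvd_pow this)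
  -- `c₄ = ± 12`
  have hc4 : W.c₄ = 12 ∨ W.c₄ = -12 := by
    rcases Int.natAbs_eq W.Δ with h | h <;> rw [h1] at h <;> rw [h] at hrel'
    · left
      push_cast at hrel'
      have h2 : (W.c₄ - 12) * (W.c₄ ^ 2 + 12 * W.c₄ + 144) = 0 := by linear_combination hrel'
      rcases mul_eq_zero.1 h2 with h3 | h3
      · linarith
      · nlinarith [sq_nonneg (W.c₄ + 6)]
    · right
      push_cast at hrel'
      have h2 : (W.c₄ + 12) * (W.c₄ ^ 2 - 12 * W.c₄ + 144) = 0 := by linear_combination hrel'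
      rcases mul_eq_zero.1 h2 with h3 | h3
      · linarith
      · nlinarith [sq_nonneg (W.c₄ - 6)]
  have hb : W.b₂ ^ 2 % 24 = 12 := by
    have hc : W.c₄ = W.b₂ ^ 2 - 24 * W.b₄ := rfl
    rcases hc4 with h | h <;> omega
  have hb2 : W.b₂ = W.a₁ ^ 2 + 4 * W.a₂ := rfl
  -- `b₂ ≡ 0, 1 mod 4`
  have hm4 : W.b₂ % 4 = 0 ∨ W.b₂ % 4 = 1 := by
    have ha : W.a₁ ^ 2 % 4 = 0 ∨ W.a₁ ^ 2 % 4 = 1 := by
      have : W.a₁ % 4 = 0 ∨ W.a₁ % 4 = 1 ∨ W.a₁ % 4 = 2 ∨ W.a₁ % 4 = 3 := by omega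
      rcases this with h | h | h | h <;> simp [pow_two, Int.mul_emod, h]
    omega
  -- residues of `b₂` mod 24
  have key : ∀ r : ℤ, 0 ≤ r → r < 24 → (r % 4 = 0 ∨ r % 4 = 1) → r ^ 2 % 24 ≠ 12 := by
    intro r h0 h24 h4
    interval_cases r <;> simp_all
  have hr := key (W.b₂ % 24) (Int.emod_nonneg _ (by norm_num)) (Int.emod_lt_of_pos _ (by norm_num))
    (by omega)
  apply hr
  rw [← hb, pow_two, pow_two, Int.mul_emod (W.b₂)]

end Fermat.Agent.S52.I
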