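import Fermat.Agent.S52.I.Real
import Fermat.Agent.S52.I.SemiA
import Fermat.Agent.S52.I.ChooseC

/-! # S52 / I / ChooseD : the choice of the parameter `t` -/

set_option autoImplicit false

namespace Fermat.Agent.S52.I

open Polynomial Fermat.Agent.S52

theorem ChooseD_five_le {r : ℕ} (hr : r.Prime) (h2 : r ≠ 2) (h3 : r ≠ 3) : 5 ≤ r := by
  by_contra h
  have h5 : r < 5 := not_le.1 h
  have h1 := hr.two_le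
  interval_cases r
  · exact h2 rfl
  · exact h3 rfl
  · exact absurd hr (by norm_num)

theorem ChooseD_not_dvd {r : ℕ} (hr : r.Prime) {M : ℤ} (hM : M ≠ 0)
    (h : r ∉ M.natAbs.primeFactors) : ¬ (r : ℤ) ∣ M := by
  intro hd
  apply h
  rw [Nat.mem_primeFactors]
  exact ⟨hr, Int.natCast_dvd.1 hd, Int.natAbs_ne_zero.2 hM⟩

theorem ChooseD_coprime {r : ℕ} (hr : r.Prime) {M : ℤ} (h : ¬ (r : ℤ) ∣ M) :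
    IsCoprime M ((r : ℤ) ^ 2) :=
  (((Nat.prime_iff_prime_int.mp hr).irreducible.coprime_iff_not_dvd).2 h).symm.pow_right

theorem ChooseD_coprime' {r s : ℕ} (hr : r.Prime) (hs : s.Prime) (h : r ≠ s) :
    IsCoprime ((r : ℤ) ^ 2) ((s : ℤ) ^ 2) := by
  refine IsCoprime.pow ?_
  rw [Nat.isCoprime_iff_coprime]
  exact (Nat.coprime_primes hr hs).2 h

/-- transport along `r ^ 2 ∣ t - n`. -/
theorem ChooseD_transport (c4 c6 D : ℤ) {r : ℕ} {t n : ℤ} (h : (r : ℤ) ^ 2 ∣ t - n) :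
    (((r : ℤ) ∣ famD c4 c6 D n → (r : ℤ) ∣ famD c4 c6 D t) ∧
      (¬ (r : ℤ) ^ 2 ∣ famD c4 c6 D n → ¬ (r : ℤ) ^ 2 ∣ famD c4 c6 D t)) ∧
      ((famC6 c4 c6 D t : ℤ) : ZMod r) = ((famC6 c4 c6 D n : ℤ) : ZMod r) := by
  have h1 : (r : ℤ) ∣ t - n := (dvd_pow_self (r : ℤ) two_ne_zero).trans h
  have hD2 : (r : ℤ) ^ 2 ∣ famD c4 c6 D t - famD c4 c6 D n := h.trans (famD_sub_dvd c4 c6 D t n)
  have hD1 : (r : ℤ) ∣ famD c4 c6 D t - famD c4 c6 D n := h1.trans (famD_sub_dvd c4 c6 D t n)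
  have hC : (r : ℤ) ∣ famC6 c4 c6 D t - famC6 c4 c6 D n := h1.trans (famC6_sub_dvd c4 c6 D t n)
  refine ⟨⟨fun hn => ?_, fun hn ht => hn ?_⟩, ?_⟩
  · have := dvd_add hD1 hn
    rwa [sub_add_cancel] at this
  · have := dvd_sub ht hD2
    rwa [sub_sub_cancel] at this
  · rw [eq_comm, ZMod.intCast_eq_intCast_iff_dvd_sub]
    exact hC

/-- **the choice of `t`.**  `exists_real_cusps` (casts of `c₄, c₆, Δ`; `c₄_ne_zero`, `c₆_ne_zero`) gives `θ₁` (`famC6 > 0`), `θ₂` (`famC6 < 0`).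
`exists_prime_of_cusp` with `S` = `(M.natAbs).primeFactors ∪ {2,3}` for `θ₁` gives `r₁, n₁`; with `S ∪ {r₁}` for `θ₂` gives `r₂, n₂`.
`exists_crt3` with moduli `M, r₁², r₂²`.  `famD_sub_dvd`, `famC6_sub_dvd` transport everything from `n_i` to `t`. -/
theorem exists_param (W : WeierstrassCurve ℤ) (hΔ : W.Δ ≠ 0) (hW : W.IsSemistableModel) (M : ℤ) (hM : M ≠ 0) :
    ∃ (t : ℤ) (r₁ r₂ : ℕ), r₁.Prime ∧ r₂.Prime ∧ 5 ≤ r₁ ∧ 5 ≤ r₂ ∧ M ∣ t ∧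
      ¬ (r₁ : ℤ) ∣ M ∧ ¬ (r₂ : ℤ) ∣ M ∧
      (¬ IsSquare (-1 : ZMod r₁) ∧ IsSquare (2 : ZMod r₁) ∧ IsSquare (3 : ZMod r₁)) ∧
      (¬ IsSquare (-1 : ZMod r₂) ∧ IsSquare (2 : ZMod r₂) ∧ IsSquare (3 : ZMod r₂)) ∧
      ((r₁ : ℤ) ∣ famD W.c₄ W.c₆ W.Δ t ∧ ¬ (r₁ : ℤ) ^ 2 ∣ famD W.c₄ W.c₆ W.Δ t) ∧
      ((r₂ : ℤ) ∣ famD W.c₄ W.c₆ W.Δ t ∧ ¬ (r₂ : ℤ) ^ 2 ∣ famD W.c₄ W.c₆ W.Δ t) ∧
      IsSquare ((famC6 W.c₄ W.c₆ W.Δ t : ℤ) : ZMod r₁) ∧ ¬ IsSquare ((famC6 W.c₄ W.c₆ W.Δ t : ℤ) : ZMod r₂) := by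
  classical
  have h4 := c₄_ne_zero W hΔ hW
  have h6 := c₆_ne_zero W hΔ hW
  have hrel : W.c₄ ^ 3 - W.c₆ ^ 2 = 1728 * W.Δ := W.c_relation.symm
  have hrelR : (W.c₄ : ℝ) ^ 3 - (W.c₆ : ℝ) ^ 2 = 1728 * (W.Δ : ℝ) := by exact_mod_cast hrel
  obtain ⟨⟨θ₁, h01, hp1⟩, ⟨θ₂, h02, hn2⟩⟩ := exists_real_cusps (c4 := (W.c₄ : ℝ)) (c6 := (W.c₆ : ℝ))
    (D := (W.Δ : ℝ)) (Int.cast_ne_zero.2 h4) (Int.cast_ne_zero.2 h6) (Int.cast_ne_zero.2 hΔ) hrelR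
  obtain ⟨r₁, n₁, hr₁, hS₁, ha₁, hb₁, hc₁, hd₁, he₁, hf₁⟩ :=
    exists_prime_of_cusp hΔ hrel h01 hp1.ne' (M.natAbs.primeFactors ∪ {2, 3})
  obtain ⟨r₂, n₂, hr₂, hS₂, ha₂, hb₂, hc₂, hd₂, he₂, hf₂⟩ :=
    exists_prime_of_cusp hΔ hrel h02 hn2.ne (insert r₁ (M.natAbs.primeFactors ∪ {2, 3}))
  simp only [Finset.mem_union, Finset.mem_insert, Finset.mem_singleton, not_or] at hS₁ hS₂
  obtain ⟨hM₁, h21, h31⟩ := hS₁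
  obtain ⟨h12, hM₂, h22, h32⟩ := hS₂
  have hnd₁ := ChooseD_not_dvd hr₁ hM hM₁
  have hnd₂ := ChooseD_not_dvd hr₂ hM hM₂
  obtain ⟨t, ht, ht₁, ht₂⟩ := exists_crt3 (ChooseD_coprime hr₁ hnd₁) (ChooseD_coprime hr₂ hnd₂)
    (ChooseD_coprime' hr₁ hr₂ (Ne.symm h12)) n₁ n₂
  obtain ⟨⟨hA₁, hB₁⟩, hC₁⟩ := ChooseD_transport W.c₄ W.c₆ W.Δ ht₁
  obtain ⟨⟨hA₂, hB₂⟩, hC₂⟩ := ChooseD_transport W.c₄ W.c₆ W.Δ ht₂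
  refine ⟨t, r₁, r₂, hr₁, hr₂, ChooseD_five_le hr₁ h21 h31, ChooseD_five_le hr₂ h22 h32, ht,
    hnd₁, hnd₂, ⟨ha₁, hb₁, hc₁⟩, ⟨ha₂, hb₂, hc₂⟩, ⟨hA₁ hd₁, hB₁ he₁⟩, ⟨hA₂ hd₂, hB₂ he₂⟩, ?_, ?_⟩
  · rw [hC₁]
    exact hf₁.2 hp1
  · rw [hC₂]
    exact fun h => absurd (hf₂.1 h) (not_lt.2 hn2.le)

end Fermat.Agent.S52.I
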