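import Mathlib

/-! # S52 / I / GlobalA : sign and quadratic character -/

set_option autoImplicit false

namespace Fermat.Agent.S52.I

theorem GlobalA_isSquare_natAbs {S : ℤ} (hS : S ≠ 0)
    (hev : ∀ p : ℕ, p.Prime → 5 ≤ p → Even (padicValInt p S))
    {r : ℕ} (h2 : IsSquare (2 : ZMod r)) (h3 : IsSquare (3 : ZMod r)) :
    IsSquare ((S.natAbs : ℕ) : ZMod r) := by
  have hm : S.natAbs ≠ 0 := Int.natAbs_ne_zero.2 hS
  have e := Nat.factorization_prod_pow_eq_self hm
  rw [← e, Finsupp.prod, Nat.cast_prod]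
  refine Finset.prod_induction _ IsSquare (fun a b ha hb => ha.mul hb) IsSquare.one ?_
  intro p hp
  have hpp : p.Prime := Nat.prime_of_mem_primeFactors (Nat.support_factorization _ ▸ hp)
  rw [Nat.cast_pow]
  by_cases hp2 : p = 2
  · subst hp2
    exact_mod_cast h2.pow _
  by_cases hp3 : p = 3
  · subst hp3
    exact_mod_cast h3.pow _
  have hp5 : 5 ≤ p := by
    have h2' := hpp.two_le
    by_contra hlt
    have : p = 4 := by omega
    subst this
    exact absurd hpp (by norm_num)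
  have hE : Even (S.natAbs.factorization p) := by
    rw [Nat.factorization_def _ hpp]
    exact hev p hpp hp5
  exact hE.isSquare_pow _

/-- `S = ± 2^a 3^b n^2`; modulo `r`, `2` and `3` are squares and `-1` is not. -/
theorem isSquare_iff_pos {S : ℤ} (hS : S ≠ 0) (hev : ∀ p : ℕ, p.Prime → 5 ≤ p → Even (padicValInt p S))
    {r : ℕ} [Fact r.Prime] (hrS : ¬ (r : ℤ) ∣ S) (hm1 : ¬ IsSquare (-1 : ZMod r)) (h2 : IsSquare (2 : ZMod r))
    (h3 : IsSquare (3 : ZMod r)) : IsSquare ((S : ℤ) : ZMod r) ↔ 0 < S := by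
  have hsq := GlobalA_isSquare_natAbs hS hev h2 h3
  have hne : ((S : ℤ) : ZMod r) ≠ 0 := by
    rw [Ne, ZMod.intCast_zmod_eq_zero_iff_dvd]
    exact hrS
  constructor
  · intro h
    by_contra hneg
    have hlt : S < 0 := lt_of_le_of_ne (not_lt.1 hneg) hS
    have e : ((S.natAbs : ℕ) : ZMod r) = -((S : ℤ) : ZMod r) := by
      have : ((S.natAbs : ℕ) : ℤ) = -S := by
        rw [Int.natCast_natAbs, abs_of_neg hlt]
      rw [← Int.cast_neg, ← this, Int.cast_natCast]
    rw [e] at hsq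
    apply hm1
    have h1 : (-1 : ZMod r) = -((S : ℤ) : ZMod r) / ((S : ℤ) : ZMod r) := by
      rw [neg_div, div_self hne]
    rw [h1]
    exact hsq.div h
  · intro hpos
    have e : ((S.natAbs : ℕ) : ZMod r) = ((S : ℤ) : ZMod r) := by
      have : ((S.natAbs : ℕ) : ℤ) = S := by
        rw [Int.natCast_natAbs, abs_of_pos hpos]
      rw [← Int.cast_natCast, this]
    rwa [e] at hsq

end Fermat.Agent.S52.I
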