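import Mathlib

/-! # S52 / I / LocalA : the integers `P, Q, S` attached to a rational root of `ψ₃` -/

set_option autoImplicit false

namespace Fermat.Agent.S52.I

/-- a rational root of a monic integral quartic is an integer. -/
theorem LocalA_int_root (a b c d : ℤ) (y : ℚ)
    (h : y ^ 4 + (a : ℚ) * y ^ 3 + (b : ℚ) * y ^ 2 + (c : ℚ) * y + (d : ℚ) = 0) :
    ∃ n : ℤ, (n : ℚ) = y := by
  have hint : IsIntegral ℤ y := by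
    refine ⟨Polynomial.X ^ 4 + (Polynomial.C a * Polynomial.X ^ 3 + Polynomial.C b * Polynomial.X ^ 2
      + Polynomial.C c * Polynomial.X + Polynomial.C d), ?_, ?_⟩
    · apply Polynomial.monic_X_pow_add
      compute_degree!
    · simp only [Polynomial.eval₂_add, Polynomial.eval₂_mul, Polynomial.eval₂_pow,
        Polynomial.eval₂_X, Polynomial.eval₂_C]
      simp only [eq_intCast]
      linarith
  obtain ⟨n, hn⟩ := IsIntegrallyClosed.algebraMap_eq_of_integral hint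
  exact ⟨n, by simpa using hn⟩

/-- `n = 3 x0 ∈ ℤ` (it is a root of the monic polynomial `n^4 + b₂ n^3 + 9 b₄ n^2 + 27 b₆ n + 27 b₈`), `P = b₂ + 4 n`, `Q = 3 b₄ + b₂ n + 2 n^2`,
`S = 4 n^3 + 3 b₂ n^2 + 18 b₄ n + 27 b₆`.  `c₄, c₆`: `ring` (unfold `c₄ c₆`).  `P S = 3 Q^2`: `linear_combination` with the quartic and `WeierstrassCurve.b_relation`.
`27 Δ = Q^3 - S^2`: from `WeierstrassCurve.c_relation` (`1728 Δ = c₄^3 - c₆^2 = 64 (Q^3 - S^2)`). -/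
theorem exists_PQS (W : WeierstrassCurve ℤ) (x0 : ℚ)
    (h : 3 * x0 ^ 4 + (W.b₂ : ℚ) * x0 ^ 3 + 3 * (W.b₄ : ℚ) * x0 ^ 2 + 3 * (W.b₆ : ℚ) * x0 + (W.b₈ : ℚ) = 0) :
    ∃ P Q S : ℤ, P * S = 3 * Q ^ 2 ∧ W.c₄ = P ^ 2 - 8 * Q ∧ W.c₆ = -P ^ 3 + 12 * P * Q - 8 * S ∧
      27 * W.Δ = Q ^ 3 - S ^ 2 := by
  obtain ⟨n, hn⟩ := LocalA_int_root W.b₂ (9 * W.b₄) (27 * W.b₆) (27 * W.b₈) (3 * x0) (by
    push_cast
    linear_combination 27 * h)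
  have hq : n ^ 4 + W.b₂ * n ^ 3 + 9 * W.b₄ * n ^ 2 + 27 * W.b₆ * n + 27 * W.b₈ = 0 := by
    have : ((n ^ 4 + W.b₂ * n ^ 3 + 9 * W.b₄ * n ^ 2 + 27 * W.b₆ * n + 27 * W.b₈ : ℤ) : ℚ) = 0 := by
      push_cast
      rw [hn]
      linear_combination 27 * h
    exact_mod_cast this
  have hb := W.b_relation
  have hc := W.c_relation
  have hPS : (W.b₂ + 4 * n) * (4 * n ^ 3 + 3 * W.b₂ * n ^ 2 + 18 * W.b₄ * n + 27 * W.b₆) =
      3 * (3 * W.b₄ + W.b₂ * n + 2 * n ^ 2) ^ 2 := by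
    linear_combination 4 * hq - 27 * hb
  have hc4 : W.c₄ = (W.b₂ + 4 * n) ^ 2 - 8 * (3 * W.b₄ + W.b₂ * n + 2 * n ^ 2) := by
    rw [WeierstrassCurve.c₄]
    ring
  have hc6 : W.c₆ = -(W.b₂ + 4 * n) ^ 3 + 12 * (W.b₂ + 4 * n) * (3 * W.b₄ + W.b₂ * n + 2 * n ^ 2) -
      8 * (4 * n ^ 3 + 3 * W.b₂ * n ^ 2 + 18 * W.b₄ * n + 27 * W.b₆) := by
    rw [WeierstrassCurve.c₆]
    ring
  refine ⟨W.b₂ + 4 * n, 3 * W.b₄ + W.b₂ * n + 2 * n ^ 2,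
    4 * n ^ 3 + 3 * W.b₂ * n ^ 2 + 18 * W.b₄ * n + 27 * W.b₆, hPS, hc4, hc6, ?_⟩
  generalize W.b₂ + 4 * n = P at *
  generalize 3 * W.b₄ + W.b₂ * n + 2 * n ^ 2 = Q at *
  generalize 4 * n ^ 3 + 3 * W.b₂ * n ^ 2 + 18 * W.b₄ * n + 27 * W.b₆ = S at *
  rw [hc4, hc6] at hc
  have h64 : (64 : ℤ) * (27 * W.Δ) = 64 * (Q ^ 3 - S ^ 2) := by
    linear_combination hc + (-16 * P ^ 2 + 192 * Q) * hPS
  exact mul_left_cancel₀ (by norm_num) h64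

end Fermat.Agent.S52.I
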