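import Mathlib

/-! # S52 / I / LocalB : local analysis of `P S = 3 Q²`, `27 Δ = Q³ - S²` -/

set_option autoImplicit false
set_option linter.unusedVariables false
set_option linter.unusedSectionVars false

namespace Fermat.Agent.S52.I

theorem LocalB_val_eq {p : ℕ} (hp : p.Prime) {x y : ℤ} {n : ℕ} (h : x = (p : ℤ) ^ n * y)
    (hy : ¬ (p : ℤ) ∣ y) : padicValInt p x = n := by
  have : Fact p.Prime := ⟨hp⟩
  have hp0 : (p : ℤ) ≠ 0 := by exact_mod_cast hp.ne_zero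
  have hy0 : y ≠ 0 := fun h0 => hy (h0 ▸ dvd_zero _)
  have hx0 : x ≠ 0 := by rw [h]; exact mul_ne_zero (pow_ne_zero n hp0) hy0
  apply le_antisymm
  · by_contra hlt
    rw [not_le] at hlt
    have h1 : (p : ℤ) ^ (n + 1) ∣ x := (padicValInt_dvd_iff _ _).2 (Or.inr hlt)
    rw [h, pow_succ] at h1
    exact hy ((mul_dvd_mul_iff_left (pow_ne_zero n hp0)).1 h1)
  · exact ((padicValInt_dvd_iff n x).1 ⟨y, h⟩).resolve_left hx0

theorem LocalB_exists {p : ℕ} (hp : p.Prime) {x : ℤ} (hx : x ≠ 0) :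
    ∃ (n : ℕ) (y : ℤ), x = (p : ℤ) ^ n * y ∧ ¬ (p : ℤ) ∣ y := by
  have : Fact p.Prime := ⟨hp⟩
  obtain ⟨y, hy⟩ := padicValInt_dvd (p := p) x
  refine ⟨padicValInt p x, y, hy, ?_⟩
  rintro ⟨z, hz⟩
  have h1 : (p : ℤ) ^ (padicValInt p x + 1) ∣ x := ⟨z, by rw [pow_succ, mul_assoc, ← hz]; exact hy⟩
  rcases (padicValInt_dvd_iff _ _).1 h1 with h2 | h2
  · exact hx h2
  · omega

theorem LocalB_not_dvd_ofNat {p : ℕ} (hp5 : 5 ≤ p) : ¬ (p : ℤ) ∣ 3 := by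
  intro h
  have h1 : p ∣ 3 := by exact_mod_cast h
  have := Nat.le_of_dvd (by norm_num) h1
  omega

section
variable {P Q S c4 c6 Δ : ℤ} (h1 : P * S = 3 * Q ^ 2) (h4 : c4 = P ^ 2 - 8 * Q)
  (h6 : c6 = -P ^ 3 + 12 * P * Q - 8 * S) (hΔ : 27 * Δ = Q ^ 3 - S ^ 2)
include h1 h4 hΔ

theorem S_ne_zero (hΔ0 : Δ ≠ 0) : S ≠ 0 := by
  rintro rfl
  have hQ : Q = 0 := by
    have : 3 * Q ^ 2 = 0 := by rw [← h1]; ring
    have h2 : Q ^ 2 = 0 := by omega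
    exact pow_eq_zero_iff (two_ne_zero) |>.1 h2
  subst hQ
  apply hΔ0
  have : 27 * Δ = 0 := by rw [hΔ]; ring
  omega

/-- if `p ∣ S` then `p ∣ Q`, `p ∣ Δ`, so `p ∤ c4`, `p ∤ P`, `v(S) = v(3 Q^2) = 2 v(Q)` and `v(27 Δ) = v(Q^3 - S^2) = 3 v(Q)` (`4 v(Q) > 3 v(Q)`). -/
theorem even_and_three_dvd (hΔ0 : Δ ≠ 0) {p : ℕ} (hp : p.Prime) (hp5 : 5 ≤ p) (hss : (p : ℤ) ∣ Δ → ¬ (p : ℤ) ∣ c4)
    (hpS : (p : ℤ) ∣ S) : Even (padicValInt p S) ∧ 3 ∣ padicValInt p Δ := by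
  have hpp : Prime (p : ℤ) := Nat.prime_iff_prime_int.1 hp
  have h3 : ¬ (p : ℤ) ∣ 3 := LocalB_not_dvd_ofNat hp5
  have hS0 : S ≠ 0 := S_ne_zero h1 h4 hΔ hΔ0
  have hpQ : (p : ℤ) ∣ Q := by
    have h : (p : ℤ) ∣ 3 * Q ^ 2 := by rw [← h1]; exact Dvd.dvd.mul_left hpS P
    exact hpp.dvd_of_dvd_pow ((hpp.dvd_or_dvd h).resolve_left h3)
  have h27 : ¬ (p : ℤ) ∣ 27 := by
    intro h
    have : (p : ℤ) ∣ 3 ^ 3 := by norm_num; exact h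
    exact h3 (hpp.dvd_of_dvd_pow this)
  have hpΔ : (p : ℤ) ∣ Δ := by
    have h : (p : ℤ) ∣ 27 * Δ := by
      rw [hΔ]
      exact dvd_sub (dvd_pow hpQ (by norm_num)) (dvd_pow hpS (by norm_num))
    exact (hpp.dvd_or_dvd h).resolve_left h27
  have hpP : ¬ (p : ℤ) ∣ P := by
    intro h
    apply hss hpΔ
    rw [h4]
    exact dvd_sub (dvd_pow h (by norm_num)) (Dvd.dvd.mul_left hpQ 8)
  have hQ0 : Q ≠ 0 := by
    rintro rfl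
    have : P * S = 0 := by rw [h1]; ring
    rcases mul_eq_zero.1 this with h | h
    · exact hpP (h ▸ dvd_zero _)
    · exact hS0 h
  obtain ⟨a, Q', rfl, hQ'⟩ := LocalB_exists hp hQ0
  obtain ⟨b, S', rfl, hS'⟩ := LocalB_exists hp hS0
  obtain ⟨c, Δ', rfl, hΔ'⟩ := LocalB_exists hp hΔ0
  have ha : a ≠ 0 := by
    rintro rfl
    rw [pow_zero, one_mul] at hpQ
    exact hQ' hpQ
  have hb : b = 2 * a := by
    have e1 : padicValInt p (P * ((p : ℤ) ^ b * S')) = b :=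
      LocalB_val_eq hp (y := P * S') (by ring) (fun h => (hpp.dvd_or_dvd h).elim hpP hS')
    have e2 : padicValInt p (3 * ((p : ℤ) ^ a * Q') ^ 2) = 2 * a :=
      LocalB_val_eq hp (y := 3 * Q' ^ 2) (by ring)
        (fun h => (hpp.dvd_or_dvd h).elim h3 (fun h' => hQ' (hpp.dvd_of_dvd_pow h')))
    rw [h1] at e1
    omega
  subst hb
  have hc : c = 3 * a := by
    have e1 : padicValInt p (27 * ((p : ℤ) ^ c * Δ')) = c :=
      LocalB_val_eq hp (y := 27 * Δ') (by ring) (fun h => (hpp.dvd_or_dvd h).elim h27 hΔ')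
    have e2 : padicValInt p (((p : ℤ) ^ a * Q') ^ 3 - ((p : ℤ) ^ (2 * a) * S') ^ 2) = 3 * a := by
      refine LocalB_val_eq hp (y := Q' ^ 3 - (p : ℤ) ^ a * S' ^ 2) (by ring) ?_
      intro h
      have h' : (p : ℤ) ∣ Q' ^ 3 := by
        have := dvd_add h (Dvd.dvd.mul_right (dvd_pow_self (p : ℤ) ha) (S' ^ 2))
        rwa [sub_add_cancel] at this
      exact hQ' (hpp.dvd_of_dvd_pow h')
    rw [hΔ] at e1
    omega
  subst hc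
  rw [LocalB_val_eq hp rfl hS', LocalB_val_eq hp rfl hΔ']
  exact ⟨even_two_mul a, Dvd.intro a rfl⟩

include h6 in
/-- `S^3 c6 = -27 Q^6 + 36 Q^3 S^2 - 8 S^4 ≡ S^4 mod p`. -/
theorem dvd_c6_sub (hΔ0 : Δ ≠ 0) {p : ℕ} (hp : p.Prime) (hp5 : 5 ≤ p) (hpΔ : (p : ℤ) ∣ Δ) (hpS : ¬ (p : ℤ) ∣ S) :
    (p : ℤ) ∣ c6 - S := by
  have hpp : Prime (p : ℤ) := Nat.prime_iff_prime_int.1 hp
  have key : S ^ 3 * (c6 - S) = -9 * (3 * Q ^ 3 - S ^ 2) * (27 * Δ) := by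
    linear_combination S ^ 3 * h6 + 9 * (3 * Q ^ 3 - S ^ 2) * hΔ +
      (-((P * S) ^ 2 + (P * S) * (3 * Q ^ 2) + (3 * Q ^ 2) ^ 2) + 12 * Q * S ^ 2) * h1
  have h : (p : ℤ) ∣ S ^ 3 * (c6 - S) := by
    rw [key]
    exact Dvd.dvd.mul_left (Dvd.dvd.mul_left hpΔ 27) _
  exact (hpp.dvd_or_dvd h).resolve_left (fun h' => hpS (hpp.dvd_of_dvd_pow h'))

end

end Fermat.Agent.S52.I
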