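import Fermat.Agent.S51.Torsion
import Fermat.Prelude.Def_FLTPrelim_Modularity
import Fermat.Prelude.Def_FLTPrelim_ModularRep
import Fermat.Agent.S52.I.LocalA
import Fermat.Agent.S52.I.LocalB
import Fermat.Agent.S52.I.GlobalA

/-! # S52 / I / GlobalB : irreducibility of `W[3]` from two primes of multiplicative reduction -/

set_option autoImplicit false

namespace Fermat.Agent.S52.I

/-- **irreducibility criterion.**  Otherwise `S51.exists_of_not_irr3` gives `x0`, `exists_PQS` gives `P,Q,S`; `S ≠ 0`, all `v_p(S)`, `p ≥ 5`, are even;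
`r_i ∤ S` (because `3 ∤ v_{r_i}(Δ)`) and `c₆ ≡ S mod r_i`; so `S > 0` (by `r₁`) and `¬ S > 0` (by `r₂`). -/
theorem irr3_of_primes (W : WeierstrassCurve ℤ) (hΔ : W.Δ ≠ 0) (hW : W.IsSemistableModel)
    (r₁ r₂ : ℕ) [Fact r₁.Prime] [Fact r₂.Prime] (h51 : 5 ≤ r₁) (h52 : 5 ≤ r₂)
    (hm1 : ¬ IsSquare (-1 : ZMod r₁)) (h21 : IsSquare (2 : ZMod r₁)) (h31 : IsSquare (3 : ZMod r₁))
    (hm2 : ¬ IsSquare (-1 : ZMod r₂)) (h22 : IsSquare (2 : ZMod r₂)) (h32 : IsSquare (3 : ZMod r₂))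
    (hd1 : (r₁ : ℤ) ∣ W.Δ) (hd2 : (r₂ : ℤ) ∣ W.Δ)
    (hv1 : ¬ 3 ∣ padicValInt r₁ W.Δ) (hv2 : ¬ 3 ∣ padicValInt r₂ W.Δ)
    (hs1 : IsSquare ((W.c₆ : ℤ) : ZMod r₁)) (hs2 : ¬ IsSquare ((W.c₆ : ℤ) : ZMod r₂)) :
    W.ModRepIsIrreducible 3 := by
  by_contra hirr
  obtain ⟨x0, hx0⟩ := Fermat.Agent.S51.exists_of_not_irr3 W hΔ hirr
  obtain ⟨P, Q, S, h1, h4, h6, hD⟩ := exists_PQS W x0 hx0
  have hS0 : S ≠ 0 := S_ne_zero h1 h4 hD hΔ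
  have hss : ∀ p : ℕ, p.Prime → (p : ℤ) ∣ W.Δ → ¬ (p : ℤ) ∣ W.c₄ := hW
  have hev : ∀ p : ℕ, p.Prime → 5 ≤ p → Even (padicValInt p S) := by
    intro p hp hp5
    by_cases hpS : (p : ℤ) ∣ S
    · exact (even_and_three_dvd h1 h4 hD hΔ hp hp5 (hss p hp) hpS).1
    · rw [padicValInt.eq_zero_of_not_dvd hpS]
      exact Even.zero
  have hr : ∀ r : ℕ, r.Prime → 5 ≤ r → ¬ 3 ∣ padicValInt r W.Δ → ¬ (r : ℤ) ∣ S :=
    fun r hr h5 hv hrS => hv (even_and_three_dvd h1 h4 hD hΔ hr h5 (hss r hr) hrS).2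
  have hr1 := hr r₁ Fact.out h51 hv1
  have hr2 := hr r₂ Fact.out h52 hv2
  have e1 : ((S : ℤ) : ZMod r₁) = ((W.c₆ : ℤ) : ZMod r₁) :=
    (ZMod.intCast_eq_intCast_iff_dvd_sub _ _ _).2 (dvd_c6_sub h1 h4 h6 hD hΔ Fact.out h51 hd1 hr1)
  have e2 : ((S : ℤ) : ZMod r₂) = ((W.c₆ : ℤ) : ZMod r₂) :=
    (ZMod.intCast_eq_intCast_iff_dvd_sub _ _ _).2 (dvd_c6_sub h1 h4 h6 hD hΔ Fact.out h52 hd2 hr2)
  rw [← e1] at hs1
  rw [← e2] at hs2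
  exact hs2 ((isSquare_iff_pos hS0 hev hr2 hm2 h22 h32).2
    ((isSquare_iff_pos hS0 hev hr1 hm1 h21 h31).1 hs1))

end Fermat.Agent.S52.I
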