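import Fermat.Agent.S52.FamAlg
import Fermat.Prelude.Def_FLTPrelim_Modularity

/-! # S52 / I / SemiB : semistability of the member `t` -/

set_option autoImplicit false

namespace Fermat.Agent.S52.I

open Fermat.Agent.S52

/-- semistability of a model of the member `t`, `30 Δ ∣ t`.
`p ∣ t`: `famC4 .. t ≡ c₄`, `famD .. t ≡ 1 mod p` (`fam*_sub_dvd` with `t' = 0`, `fam*_zero`), so `p ∣ Δ'` gives `p ∣ Δ`, `p ∤ c₄`, `p ∤ c₄'`.
`p ∤ t`: then `p ∤ 30 Δ`; `p ∣ Δ famD⁵` gives `p ∣ famD .. t`; apply `fam_coprime` in `ZMod p` (`map_fam*` for `Int.castRingHom (ZMod p)`,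
`(ZMod.intCast_zmod_eq_zero_iff_dvd ..)`/`ZMod.intCast_cast`, `W.c_relation` cast). -/
theorem semistable_of_model (W W' : WeierstrassCurve ℤ) (hΔ : W.Δ ≠ 0) (hW : W.IsSemistableModel) {t : ℤ}
    (ht : 30 * W.Δ ∣ t) (h4 : W'.c₄ = famC4 W.c₄ W.c₆ W.Δ t)
    (hD : W'.Δ = W.Δ * famD W.c₄ W.c₆ W.Δ t ^ 5) : W'.IsSemistableModel := by
  intro p hp hpΔ hpc
  rw [hD] at hpΔ
  rw [h4] at hpc
  have hpp : Prime (p : ℤ) := Nat.prime_iff_prime_int.mp hp
  by_cases hpt : (p : ℤ) ∣ t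
  · have e1 := famC4_sub_dvd W.c₄ W.c₆ W.Δ t 0
    have e2 := famD_sub_dvd W.c₄ W.c₆ W.Δ t 0
    rw [sub_zero, famC4_zero] at e1
    rw [sub_zero, famD_zero] at e2
    have hc4 : (p : ℤ) ∣ W.c₄ := by
      have := dvd_sub hpc (hpt.trans e1)
      rwa [sub_sub_cancel] at this
    rcases hpp.dvd_or_dvd hpΔ with h | h
    · exact hW p hp h hc4
    · have h1 := hpp.dvd_of_dvd_pow h
      have := dvd_sub h1 (hpt.trans e2)
      rw [sub_sub_cancel] at this
      exact hpp.not_dvd_one this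
  · haveI : Fact p.Prime := ⟨hp⟩
    have h30Δ : ¬ (p : ℤ) ∣ 30 * W.Δ := fun h => hpt (h.trans ht)
    have hΔ' : ¬ (p : ℤ) ∣ W.Δ := fun h => h30Δ (h.mul_left _)
    have h30 : ¬ (p : ℤ) ∣ 30 := fun h => h30Δ (h.mul_right _)
    have hfD : (p : ℤ) ∣ famD W.c₄ W.c₆ W.Δ t :=
      hpp.dvd_of_dvd_pow ((hpp.dvd_or_dvd hpΔ).resolve_left hΔ')
    have key := fam_coprime (k := ZMod p) (c4 := Int.castRingHom (ZMod p) W.c₄)
      (c6 := Int.castRingHom (ZMod p) W.c₆) (D := Int.castRingHom (ZMod p) W.Δ)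
      (t := Int.castRingHom (ZMod p) t)
      (by
        intro h
        apply h30
        rw [← ZMod.intCast_zmod_eq_zero_iff_dvd]
        exact_mod_cast h)
      (by
        have := congrArg (Int.castRingHom (ZMod p)) W.c_relation
        simp only [map_sub, map_pow, map_mul, map_ofNat] at this
        exact this.symm)
      (by
        intro h
        apply hΔ'
        rw [← ZMod.intCast_zmod_eq_zero_iff_dvd]
        exact h)
      (by
        rw [← map_famD]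
        exact (ZMod.intCast_zmod_eq_zero_iff_dvd _ p).2 hfD)
    apply key
    rw [← map_famC4]
    exact (ZMod.intCast_zmod_eq_zero_iff_dvd _ p).2 hpc

end Fermat.Agent.S52.I
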