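import Fermat.Agent.S52.Bridge
import Fermat.Agent.S52.Congr

/-! # S52 / I / SemiC : the congruence `a_ℓ(W') ≡ a_ℓ(W) mod 5` -/

set_option autoImplicit false

namespace Fermat.Agent.S52.I

open Fermat.Agent.S52

/-- `ℓ = 2, 3`: `apOfModel_congr`.  `ℓ ≥ 7`: `apOfModel_eq_short` for `W` and `W'`, `fam_congr` in `ZMod ℓ` with the casts of `c₄, c₆, Δ, t`
(`map_fam*` for `Int.castRingHom (ZMod ℓ)`; `hrel` = cast of `W.c_relation`; `hD` from `h1`; `famD ≠ 0` from `h2` and `hD'`). -/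
theorem five_dvd_ap_sub (W W' : WeierstrassCurve ℤ) {t : ℤ}
    (e1 : W'.a₁ = W.a₁) (e2 : W'.a₂ = W.a₂) (e3 : W'.a₃ = W.a₃) (e4 : 6 ∣ W'.a₄ - W.a₄) (e6 : 6 ∣ W'.a₆ - W.a₆)
    (h4 : W'.c₄ = famC4 W.c₄ W.c₆ W.Δ t) (h6 : W'.c₆ = famC6 W.c₄ W.c₆ W.Δ t)
    (hD' : W'.Δ = W.Δ * famD W.c₄ W.c₆ W.Δ t ^ 5)
    (ℓ : ℕ) (hℓ : ℓ.Prime) (h1 : W.IsGoodPrimeFor ℓ) (h2 : W'.IsGoodPrimeFor ℓ) (h5 : ℓ ≠ 5) :
    (5 : ℤ) ∣ (W'.apOfModel ℓ - W.apOfModel ℓ) := by
  by_cases hsmall : ℓ ∣ 6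
  · have h6' : (ℓ : ℤ) ∣ 6 := by exact_mod_cast hsmall
    rw [apOfModel_congr W W' ℓ e1 e2 e3 (h6'.trans e4) (h6'.trans e6), sub_self]
    exact dvd_zero _
  · have : Fact ℓ.Prime := ⟨hℓ⟩
    have hℓ5 : 5 < ℓ := by
      by_contra hc
      have h2' := hℓ.two_le
      have : ℓ = 2 ∨ ℓ = 3 ∨ ℓ = 4 ∨ ℓ = 5 := by omega
      rcases this with rfl | rfl | rfl | rfl
      · exact hsmall (by norm_num)
      · exact hsmall (by norm_num)
      · exact absurd hℓ (by norm_num)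
      · exact h5 rfl
    rw [apOfModel_eq_short W ℓ hℓ5.le, apOfModel_eq_short W' ℓ hℓ5.le]
    have key := fam_congr ℓ hℓ5 (Int.castRingHom (ZMod ℓ) W.c₄) (Int.castRingHom (ZMod ℓ) W.c₆)
      (Int.castRingHom (ZMod ℓ) W.Δ) (Int.castRingHom (ZMod ℓ) t)
      (by
        have := congrArg (Int.castRingHom (ZMod ℓ)) W.c_relation
        simp only [map_sub, map_pow, map_mul, map_ofNat] at this
        exact this.symm)
      (by
        intro h
        apply h1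
        rw [← ZMod.intCast_zmod_eq_zero_iff_dvd]
        exact h)
      (by
        rw [← map_famD]
        intro h
        apply h2
        rw [hD']
        exact ((ZMod.intCast_zmod_eq_zero_iff_dvd _ ℓ).1 h).pow (by norm_num) |>.mul_left _)
    rw [← map_famC4, ← map_famC6, ← h4, ← h6] at key
    simp only [eq_intCast] at key
    convert key using 1
    ring

end Fermat.Agent.S52.I
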