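import Fermat.Prelude.Def_GaloisRep_ComplexConjugation

/-! # S52 / I / FrobA : real algebraic numbers and complex conjugation -/

set_option autoImplicit false

namespace Fermat.Agent.S52.I

open Polynomial

local notation "Qb" => AlgebraicClosure ℚ
local notation "GQ" => (AlgebraicClosure ℚ ≃ₐ[ℚ] AlgebraicClosure ℚ)

/-- a real root of a nonzero integral polynomial comes from `ℚ̄`. -/
theorem exists_of_real_root {g : ℤ[X]} (hg : g ≠ 0) {θ : ℝ} (h : aeval θ g = 0) :
    ∃ x : Qb, complexEmbedding x = (θ : ℂ) := by
  have hinj : Function.Injective (Int.castRingHom Qb) := Int.cast_injective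
  have hf0 : g.map (Int.castRingHom Qb) ≠ 0 := (Polynomial.map_ne_zero_iff hinj).2 hg
  have hroot : ((g.map (Int.castRingHom Qb)).map (complexEmbedding : Qb →+* ℂ)).IsRoot (θ : ℂ) := by
    have h1 : (complexEmbedding : Qb →+* ℂ).comp (Int.castRingHom Qb) = algebraMap ℤ ℂ :=
      Subsingleton.elim _ _
    have h2 : aeval (algebraMap ℝ ℂ θ) g = algebraMap ℝ ℂ (aeval θ g) :=
      Polynomial.aeval_algebraMap_apply ℂ θ g
    rw [Polynomial.map_map, IsRoot.def, eval_map, h1, ← aeval_def]
    rw [h, map_zero] at h2
    exact h2
  obtain ⟨x, hx⟩ := (IsAlgClosed.splits _).mem_range_of_isRoot hf0 hroot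
  exact ⟨x, hx⟩

theorem conj_eq_self_of_real {x : Qb} {θ : ℝ} (h : complexEmbedding x = (θ : ℂ)) : complexConjugation x = x := by
  apply complexEmbedding.toRingHom.injective
  change complexEmbedding (complexConjugation x) = complexEmbedding x
  rw [complexEmbedding_complexConjugation, h, Complex.conj_ofReal]

/-- square roots: real or purely imaginary -/
theorem exists_sqrt (y : Qb) {v : ℝ} (h : complexEmbedding y = (v : ℂ)) (hv : v ≠ 0) :
    ∃ γ : Qb, γ ^ 2 = y ∧ (0 < v → complexConjugation γ = γ) ∧ (v < 0 → complexConjugation γ = -γ) := by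
  obtain ⟨γ, hγ⟩ := IsAlgClosed.exists_pow_nat_eq y (n := 2) (by norm_num)
  have hz : (complexEmbedding γ) ^ 2 = (v : ℂ) := by rw [← map_pow, hγ, h]
  have hre : (complexEmbedding γ).re * (complexEmbedding γ).re -
      (complexEmbedding γ).im * (complexEmbedding γ).im = v := by
    have h1 := congrArg Complex.re hz
    rwa [pow_two, Complex.mul_re, Complex.ofReal_re] at h1
  have him : (complexEmbedding γ).re * (complexEmbedding γ).im = 0 := by
    have h1 := congrArg Complex.im hz
    rw [pow_two, Complex.mul_im, Complex.ofReal_im] at h1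
    linarith
  refine ⟨γ, hγ, fun hv0 => ?_, fun hv0 => ?_⟩
  · apply complexEmbedding.toRingHom.injective
    change complexEmbedding (complexConjugation γ) = complexEmbedding γ
    rw [complexEmbedding_complexConjugation, Complex.conj_eq_iff_im]
    rcases mul_eq_zero.1 him with h0 | h0
    · exfalso
      rw [h0] at hre
      nlinarith [mul_self_nonneg (complexEmbedding γ).im]
    · exact h0
  · apply complexEmbedding.toRingHom.injective
    change complexEmbedding (complexConjugation γ) = complexEmbedding (-γ)
    rw [complexEmbedding_complexConjugation, map_neg]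
    rcases mul_eq_zero.1 him with h0 | h0
    · apply Complex.ext
      · rw [Complex.conj_re, Complex.neg_re, h0, neg_zero]
      · rw [Complex.conj_im, Complex.neg_im]
    · exfalso
      rw [h0] at hre
      nlinarith [mul_self_nonneg (complexEmbedding γ).re]

end Fermat.Agent.S52.I
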