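import Fermat.Prelude.Def_FLTPrelim_Ramification
import Fermat.Prelude.Def_EllipticCurve_FrobeniusTrace
import Mathlib.FieldTheory.Finite.Basic

/-! # S52 / I / FrobD : Frobenius elements modulo the place -/

set_option autoImplicit false

namespace Fermat.Agent.S52.I

open Polynomial

local notation "Qb" => AlgebraicClosure ℚ
local notation "GQ" => (AlgebraicClosure ℚ ≃ₐ[ℚ] AlgebraicClosure ℚ)

variable {ℓ : ℕ} {A : ValuationSubring Qb} {τ : GQ}

/-- congruence form of the Frobenius property -/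
theorem frob_sub_pow_mem (hA : A.LiesOverPrime ℓ) (hτ : A.IsFrobeniusAt τ ℓ) {x : Qb} (hx : x ∈ A) :
    τ x - x ^ ℓ ∈ A.nonunits := by
  have h2 := hτ.smul_residue_eq (IsLocalRing.residue A ⟨x, hx⟩)
  rw [← IsLocalRing.ResidueField.residue_smul, ← map_pow, ← sub_eq_zero, ← map_sub,
    IsLocalRing.residue_eq_zero_iff] at h2
  rw [ValuationSubring.mem_nonunits_iff_exists_mem_maximalIdeal]
  exact ⟨_, h2⟩

/-- membership in `A.nonunits` through the residue map -/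
theorem FrobD_mem_nonunits_iff {x : Qb} (hx : x ∈ A) :
    x ∈ A.nonunits ↔ IsLocalRing.residue A ⟨x, hx⟩ = 0 := by
  rw [IsLocalRing.residue_eq_zero_iff, ValuationSubring.mem_nonunits_iff_exists_mem_maximalIdeal]
  exact ⟨fun ⟨_, h⟩ => h, fun h => ⟨hx, h⟩⟩

theorem FrobD_intCast_mem (n : ℤ) : (n : Qb) ∈ A := intCast_mem A n

theorem FrobD_residue_intCast (n : ℤ) :
    IsLocalRing.residue A ⟨(n : Qb), FrobD_intCast_mem n⟩ = (n : IsLocalRing.ResidueField A) := by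
  have : (⟨(n : Qb), FrobD_intCast_mem n⟩ : A) = (n : A) := by
    ext
    simp
  rw [this, map_intCast]

theorem FrobD_charP (hℓ : ℓ.Prime) (hA : A.LiesOverPrime ℓ) :
    CharP (IsLocalRing.ResidueField A) ℓ := by
  rw [CharP.charP_iff_prime_eq_zero hℓ]
  have h1 : ((ℓ : ℤ) : Qb) ∈ A.nonunits := by
    rw [Int.cast_natCast]
    exact hA
  rw [FrobD_mem_nonunits_iff (FrobD_intCast_mem _), FrobD_residue_intCast, Int.cast_natCast] at h1
  exact h1

theorem intCast_mem_nonunits_iff (hℓ : ℓ.Prime) (hA : A.LiesOverPrime ℓ) (n : ℤ) :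
    (n : Qb) ∈ A.nonunits ↔ (ℓ : ℤ) ∣ n := by
  have := FrobD_charP hℓ hA
  rw [FrobD_mem_nonunits_iff (FrobD_intCast_mem n), FrobD_residue_intCast,
    CharP.intCast_eq_zero_iff (IsLocalRing.ResidueField A) ℓ]

/-- an element fixed by Frobenius is congruent to an integer (`x^ℓ - x = ∏_{n < ℓ} (x - n)` modulo `ℓ`). -/
theorem exists_int_of_fixed (hℓ : ℓ.Prime) (hA : A.LiesOverPrime ℓ) (hτ : A.IsFrobeniusAt τ ℓ) {x : Qb} (hx : x ∈ A)
    (hfix : τ x = x) : ∃ n : ℤ, x - (n : Qb) ∈ A.nonunits := by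
  have := FrobD_charP hℓ hA
  have : Fact ℓ.Prime := ⟨hℓ⟩
  have h1 := frob_sub_pow_mem hA hτ hx
  rw [hfix] at h1
  have hmem : x - x ^ ℓ ∈ A := A.sub_mem hx (A.pow_mem hx ℓ)
  rw [FrobD_mem_nonunits_iff hmem] at h1
  have h2 : (IsLocalRing.residue A ⟨x, hx⟩) ^ ℓ = IsLocalRing.residue A ⟨x, hx⟩ := by
    have e : (⟨x - x ^ ℓ, hmem⟩ : A) = ⟨x, hx⟩ - ⟨x, hx⟩ ^ ℓ := rfl
    rw [e, map_sub, map_pow, sub_eq_zero] at h1
    exact h1.symm
  obtain ⟨n, hn⟩ := (mem_bot_iff_intCast ℓ (IsLocalRing.ResidueField A)).1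
    ((Subfield.mem_bot_iff_pow_eq_self (IsLocalRing.ResidueField A) ℓ).2 h2)
  refine ⟨n, ?_⟩
  have hmem2 : x - (n : Qb) ∈ A := A.sub_mem hx (FrobD_intCast_mem n)
  rw [FrobD_mem_nonunits_iff hmem2]
  have e : (⟨x - (n : Qb), hmem2⟩ : A) = ⟨x, hx⟩ - ⟨(n : Qb), FrobD_intCast_mem n⟩ := rfl
  rw [e, map_sub, FrobD_residue_intCast, hn, sub_self]

end Fermat.Agent.S52.I
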