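import Fermat.Agent.S52.KLine

/-! # S52 / I / RealE : the cusp of a real Klein point -/

set_option autoImplicit false

namespace Fermat.Agent.S52.I

open Fermat.Agent.S52

theorem RealE_of_line {x y θ : ℝ} (hD : kD x y ≠ 0)
    (h0 : kX x y θ * kY x y θ = 0) (h6 : 0 < kC6 (kX x y θ) (kY x y θ)) :
    famD (kC4 x y) (kC6 x y) (kD x y) θ = 0 ∧ 0 < famC6 (kC4 x y) (kC6 x y) (kD x y) θ := by
  refine ⟨?_, ?_⟩
  · have h := kD_line x y θ
    have h1 : kD (kX x y θ) (kY x y θ) = 0 := by
      unfold kD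
      rw [h0]
      ring
    rw [h1] at h
    rcases mul_eq_zero.1 h.symm with h2 | h2
    · exact absurd h2 hD
    · exact pow_eq_zero_iff (by norm_num) |>.1 h2
  · rw [← kC6_line]
    exact h6

/-- the cusp `X(θ) = 0` (or `Y(θ) = 0`) of the line through a real Klein point: `α = ka x y`, `β = kb x y`, `α + β = 12 kphi x y ≠ 0`.
If `α ≠ 0`: `θ = -1/α`, `kX x y θ = 0`, `Y' = kY x y θ = y ((α+β)/α)⁵ ≠ 0`; `famC6 .. θ = kC6 0 Y' = Y'⁶ > 0` (`kC6_line`);
`kD x y * famD .. θ ^ 5 = kD 0 Y' = 0` (`kD_line`).  If `α = 0`: `β ≠ 0`, `θ = 1/β`, symmetric (`kC6 X' 0 = X'⁶`). -/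
theorem exists_cusp_of_klein_point {x y : ℝ} (hD : kD x y ≠ 0) :
    ∃ θ : ℝ, famD (kC4 x y) (kC6 x y) (kD x y) θ = 0 ∧ 0 < famC6 (kC4 x y) (kC6 x y) (kD x y) θ := by
  have hx : x ≠ 0 := by
    rintro rfl
    exact hD (by unfold kD; ring)
  have hy : y ≠ 0 := by
    rintro rfl
    exact hD (by unfold kD; ring)
  have hphi : kphi x y ≠ 0 := by
    intro h
    exact hD (by unfold kD; rw [h]; ring)
  have hab : ka x y + kb x y = 12 * kphi x y := by
    unfold ka kb kphi; ring
  by_cases hα : ka x y = 0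
  · have hβ : kb x y ≠ 0 := by
      intro hβ
      rw [hα, hβ, zero_add] at hab
      exact hphi (by linarith)
    refine ⟨1 / kb x y, RealE_of_line hD ?_ ?_⟩
    · have : kY x y (1 / kb x y) = 0 := by
        unfold kY
        rw [one_div, inv_mul_cancel₀ hβ]
        ring
      rw [this, mul_zero]
    · have h1 : kY x y (1 / kb x y) = 0 := by
        unfold kY
        rw [one_div, inv_mul_cancel₀ hβ]
        ring
      have h2 : kX x y (1 / kb x y) = x := by
        unfold kX
        rw [hα]
        ring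
      rw [h1, h2]
      have : kC6 x 0 = x ^ 6 := by unfold kC6; ring
      rw [this]
      positivity
  · refine ⟨-1 / ka x y, RealE_of_line hD ?_ ?_⟩
    · have : kX x y (-1 / ka x y) = 0 := by
        unfold kX
        rw [div_mul_cancel₀ _ hα]
        ring
      rw [this, zero_mul]
    · have h1 : kX x y (-1 / ka x y) = 0 := by
        unfold kX
        rw [div_mul_cancel₀ _ hα]
        ring
      have h2 : kY x y (-1 / ka x y) ≠ 0 := by
        unfold kY
        refine mul_ne_zero hy (pow_ne_zero _ ?_)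
        have : 1 - -1 / ka x y * kb x y = 12 * kphi x y / ka x y := by
          rw [← hab]
          field_simp
          ring
        rw [this]
        exact div_ne_zero (mul_ne_zero (by norm_num) hphi) hα
      rw [h1]
      have : ∀ Y : ℝ, kC6 0 Y = Y ^ 6 := by intro Y; unfold kC6; ring
      rw [this]
      positivity

end Fermat.Agent.S52.I
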