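import Fermat.Agent.S52.Klein

/-! # S52 / I / RealF : the symmetry `(c6, t) ↦ (-c6, -t)` -/

set_option autoImplicit false

namespace Fermat.Agent.S52.I

open Fermat.Agent.S52

/-- weights: unfold everything (`famD`, `famD_0`, ...), `ring`. -/
theorem famD_neg {R : Type*} [CommRing R] (c4 c6 D t : R) : famD c4 (-c6) D (-t) = famD c4 c6 D t := by
  unfold famD famD_0 famD_1 famD_2 famD_3 famD_4 famD_5 famD_6 famD_7 famD_8 famD_9 famD_10 famD_11 famD_12
  ring

/-- weights: unfold everything (`famC6`, `famC6_0`, ...), `ring`. -/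
theorem famC6_neg {R : Type*} [CommRing R] (c4 c6 D t : R) : famC6 c4 (-c6) D (-t) = -famC6 c4 c6 D t := by
  unfold famC6 famC6_0 famC6_1 famC6_2 famC6_3 famC6_4 famC6_5 famC6_6 famC6_7 famC6_8 famC6_9 famC6_10 famC6_11 famC6_12 famC6_13 famC6_14 famC6_15 famC6_16 famC6_17 famC6_18 famC6_19 famC6_20 famC6_21 famC6_22 famC6_23 famC6_24 famC6_25 famC6_26 famC6_27 famC6_28 famC6_29 famC6_30
  ring

end Fermat.Agent.S52.I
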