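import Fermat.Agent.S52.I.RealD
import Fermat.Agent.S52.I.RealE
import Fermat.Agent.S52.I.RealF

/-! # S52 / I / Real : real cusps with both signs of `famC6` -/

set_option autoImplicit false

namespace Fermat.Agent.S52.I

open Fermat.Agent.S52

/-- **real cusps with both signs.**  Positive sign: Klein point of `(c4,c6)`.  Negative sign: Klein point of `(c4,-c6)` and `θ ↦ -θ`
(`famD_neg`, `famC6_neg`). -/
theorem exists_real_cusps {c4 c6 D : ℝ} (h4 : c4 ≠ 0) (h6 : c6 ≠ 0) (hD : D ≠ 0)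
    (hrel : c4 ^ 3 - c6 ^ 2 = 1728 * D) :
    (∃ θ : ℝ, famD c4 c6 D θ = 0 ∧ 0 < famC6 c4 c6 D θ) ∧
    (∃ θ : ℝ, famD c4 c6 D θ = 0 ∧ famC6 c4 c6 D θ < 0) := by
  constructor
  · obtain ⟨x, y, rfl, rfl, rfl⟩ := exists_real_klein_point h4 h6 hD hrel
    exact exists_cusp_of_klein_point hD
  · obtain ⟨x, y, e4, e6, eD⟩ := exists_real_klein_point (c6 := -c6) h4 (neg_ne_zero.mpr h6) hD
      (by rw [neg_sq]; exact hrel)
    obtain ⟨θ, h0, h1⟩ := exists_cusp_of_klein_point (x := x) (y := y) (by rw [eD]; exact hD)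
    rw [e4, e6, eD] at h0 h1
    refine ⟨-θ, ?_, ?_⟩
    · rw [← famD_neg, neg_neg]; exact h0
    · have := famC6_neg c4 c6 D (-θ)
      rw [neg_neg] at this
      linarith

end Fermat.Agent.S52.I
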