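import Mathlib

/-! # S52 / I / RealA : IVT with a sign condition -/

set_option autoImplicit false

namespace Fermat.Agent.S52.I

/-- IVT with a sign condition.  `sT := sInf {s ∈ [p,q] | 0 ≤ T s}`; `T < 0` on `[p,sT)`, `T sT = 0`, so `0 < G sT`;
IVT for `G` on `[p,sT]` gives `s ∈ [p,sT]` with `G s = 0`; `s ≠ sT` because `0 < G sT`; so `T s < 0`. -/
theorem exists_zero_of_neg {T G : ℝ → ℝ} {p q : ℝ} (hpq : p ≤ q) (hT : ContinuousOn T (Set.Icc p q))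
    (hG : ContinuousOn G (Set.Icc p q)) (hTp : T p < 0) (hTq : 0 ≤ T q) (hGp : G p < 0)
    (hz : ∀ s ∈ Set.Icc p q, T s = 0 → 0 < G s) : ∃ s ∈ Set.Icc p q, T s < 0 ∧ G s = 0 := by
  set Z : Set ℝ := Set.Icc p q ∩ T ⁻¹' Set.Ici 0 with hZ
  have hcl : IsClosed Z := hT.preimage_isClosed_of_isClosed isClosed_Icc isClosed_Ici
  have hne : Z.Nonempty := ⟨q, ⟨hpq, le_rfl⟩, hTq⟩
  have hbdd : BddBelow Z := ⟨p, fun s hs => hs.1.1⟩
  have hmem : sInf Z ∈ Z := hcl.csInf_mem hne hbdd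
  set t := sInf Z with ht
  have htI : t ∈ Set.Icc p q := hmem.1
  have htT : 0 ≤ T t := hmem.2
  have hsub : Set.Icc p t ⊆ Set.Icc p q := Set.Icc_subset_Icc le_rfl htI.2
  have hlt : ∀ s ∈ Set.Icc p t, s ≠ t → T s < 0 := by
    intro s hs hst
    by_contra hneg
    have hsZ : s ∈ Z := ⟨hsub hs, not_lt.1 hneg⟩
    exact hst (le_antisymm hs.2 (csInf_le hbdd hsZ))
  have hTt : T t = 0 := by
    obtain ⟨s, hs, hs0⟩ := intermediate_value_Icc htI.1 (hT.mono hsub)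
      (show (0 : ℝ) ∈ Set.Icc (T p) (T t) from ⟨hTp.le, htT⟩)
    by_cases hst : s = t
    · rw [← hst]; exact hs0
    · exact absurd hs0 (hlt s hs hst).ne
  have hGt : 0 < G t := hz t htI hTt
  obtain ⟨s, hs, hs0⟩ := intermediate_value_Icc htI.1 (hG.mono hsub)
    (show (0 : ℝ) ∈ Set.Icc (G p) (G t) from ⟨hGp.le, hGt.le⟩)
  have hst : s ≠ t := by
    rintro rfl
    rw [hs0] at hGt
    exact lt_irrefl _ hGt
  exact ⟨s, hsub hs, hlt s hs hst, hs0⟩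

end Fermat.Agent.S52.I
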