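import Fermat.Agent.S52.Klein

/-! # S52 / I / RealB : signs of `kC6 s 1`, `kD s 1` -/

set_option autoImplicit false

namespace Fermat.Agent.S52.I

open Fermat.Agent.S52

/-- the real roots of `kC6 s 1` are `≈ -540.6, -0.054, 0.00185, 18.5`. -/
theorem kC6_neg_left {s : ℝ} (h1 : -12 ≤ s) (h2 : s ≤ -1 / 10) : kC6 s 1 < 0 := by
  have hs2 : s ^ 2 ≤ 144 := by nlinarith
  have hs4 : 0 ≤ s ^ 4 := by positivity
  have e6 : s ^ 6 ≤ 144 * s ^ 4 := by nlinarith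
  have e5 : s ^ 5 ≤ 0 := by
    have : s ^ 5 = s ^ 4 * s := by ring
    rw [this]
    exact mul_nonpos_of_nonneg_of_nonpos hs4 (by linarith)
  have e2 : -10005 * s ^ 2 - 522 * s + 1 < 0 := by nlinarith
  unfold kC6
  nlinarith

theorem kC6_neg_right {s : ℝ} (h1 : 1 / 100 ≤ s) (h2 : s ≤ 1) : kC6 s 1 < 0 := by
  have hs0 : 0 ≤ s := by linarith
  have hs2 : 0 ≤ s ^ 2 := by positivity
  have hs4 : 0 ≤ s ^ 4 := by positivity
  have e4 : s ^ 4 ≤ 1 := pow_le_one₀ hs0 h2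
  have e3 : s ^ 3 ≤ 1 := pow_le_one₀ hs0 h2
  have e6 : s ^ 6 ≤ s ^ 2 := by
    have : s ^ 6 = s ^ 2 * s ^ 4 := by ring
    rw [this]
    exact mul_le_of_le_one_right hs2 e4
  have e5 : s ^ 5 ≤ s ^ 2 := by
    have : s ^ 5 = s ^ 2 * s ^ 3 := by ring
    rw [this]
    exact mul_le_of_le_one_right hs2 e3
  unfold kC6
  nlinarith

/-- `kD s 1 = - s (s² + 11 s - 1)⁵`, `s² + 11 s - 1 < 0` here. -/
theorem kD_neg_left {s : ℝ} (h1 : -1 / 10 ≤ s) (h2 : s < 0) : kD s 1 < 0 := by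
  have hphi : kphi s 1 < 0 := by
    unfold kphi
    nlinarith
  have h5 : kphi s 1 ^ 5 < 0 := Odd.pow_neg (by decide) hphi
  unfold kD
  have : 0 < s * kphi s 1 ^ 5 := mul_pos_of_neg_of_neg h2 h5
  linarith

theorem kD_pos_right {s : ℝ} (h1 : 0 < s) (h2 : s ≤ 1 / 100) : 0 < kD s 1 := by
  have hphi : kphi s 1 < 0 := by
    unfold kphi
    nlinarith
  have h5 : kphi s 1 ^ 5 < 0 := Odd.pow_neg (by decide) hphi
  unfold kD
  have : s * kphi s 1 ^ 5 < 0 := mul_neg_of_pos_of_neg h1 h5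
  linarith

end Fermat.Agent.S52.I
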