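import Fermat.Agent.S52.I.RealA
import Fermat.Agent.S52.I.RealB

/-! # S52 / I / RealC : the real parameter -/

set_option autoImplicit false

namespace Fermat.Agent.S52.I

open Fermat.Agent.S52

/-- `exists_zero_of_neg` read from the right. -/
theorem RealC_exists_zero_of_neg_right {T G : ℝ → ℝ} {p q : ℝ} (hpq : p ≤ q)
    (hT : Continuous T) (hG : Continuous G) (hTq : T q < 0) (hTp : 0 ≤ T p) (hGq : G q < 0)
    (hz : ∀ s ∈ Set.Icc p q, T s = 0 → 0 < G s) : ∃ s ∈ Set.Icc p q, T s < 0 ∧ G s = 0 := by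
  obtain ⟨s, hs, h1, h2⟩ := exists_zero_of_neg (T := fun s => T (p + q - s))
    (G := fun s => G (p + q - s)) hpq (by fun_prop) (by fun_prop) (by simpa using hTq)
    (by simpa using hTp) (by simpa using hGq)
    (fun s hs h0 => hz (p + q - s) ⟨by linarith [hs.2], by linarith [hs.1]⟩ h0)
  exact ⟨p + q - s, ⟨by linarith [hs.2], by linarith [hs.1]⟩, h1, h2⟩

theorem RealC_cont_kC6 : Continuous fun s : ℝ => kC6 s 1 := by
  unfold kC6
  fun_prop

theorem RealC_cont_kC4 : Continuous fun s : ℝ => kC4 s 1 := by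
  unfold kC4
  fun_prop

theorem RealC_G_eq {c4 c6 D : ℝ} (hrel : c4 ^ 3 - c6 ^ 2 = 1728 * D) (s : ℝ) :
    c6 ^ 2 * kC4 s 1 ^ 3 - c4 ^ 3 * kC6 s 1 ^ 2
      = 1728 * (c6 ^ 2 * kD s 1 - D * kC6 s 1 ^ 2) := by
  have h := kC_relation s (1 : ℝ)
  linear_combination c6 ^ 2 * h - kC6 s 1 ^ 2 * hrel

theorem RealC_kC6_zero : kC6 (0 : ℝ) 1 = 1 := by
  unfold kC6
  norm_num

theorem RealC_kD_zero : kD (0 : ℝ) 1 = 0 := by
  unfold kD
  norm_num

theorem RealC_kD_one : kD (1 : ℝ) 1 < 0 := by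
  unfold kD kphi
  norm_num

theorem RealC_kD_neg12 : 0 < kD (-12 : ℝ) 1 := by
  unfold kD kphi
  norm_num

/-- there is a real `s` with `c6² kC4(s,1)³ = c4³ kC6(s,1)²` and `kC6(s,1)` of the sign of `c6`.
`G(s) := c6² kC4(s,1)³ - c4³ kC6(s,1)² = 1728 (c6² kD(s,1) - D kC6(s,1)²)` (`kC_relation`, `hrel`).
Four cases (`exists_zero_of_neg` applied to `±kC6`, `±G`, possibly after a reflection `s ↦ p + q - s`):
* `D > 0, c6 > 0`: on `[0, 1/100]`, `T = -kC6`, `G`: `T 0 = -1`, `T (1/100) > 0`, `G 0 = -1728 D < 0`, at a zero of `kC6` (`s ≠ 0`) `G = 1728 c6² kD > 0`.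
* `D > 0, c6 < 0`: on `[0, 1]` read from the right (`s ↦ 1 - s`), `T = kC6`, `G`: `kC6 1 1 < 0`, `kC6 0 1 = 1`, `kD 1 1 = -11^5 < 0` so `G 1 < 0`;
   the zeros of `kC6` in `[0,1]` are in `(0,1/100)` (`kC6_neg_right`), where `kD > 0`.
* `D < 0, c6 > 0`: on `[-1/10, 0]` read from the right (`s ↦ -s`..), `T = -kC6`, `-G`: `-G 0 = 1728 D < 0`; at the zeros of `kC6`, `kD < 0`.
* `D < 0, c6 < 0`: on `[-12, 0]`, `T = kC6`, `-G`: `kC6 (-12) 1 < 0`, `kD (-12) 1 = 12 * 11^5 > 0`, so `-G (-12) < 0`; the zeros of `kC6` in `[-12,0]` are in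
   `(-1/10, 0)` (`kC6_neg_left`), where `kD < 0`. -/
theorem exists_real_param {c4 c6 D : ℝ} (h6 : c6 ≠ 0) (hD : D ≠ 0) (hrel : c4 ^ 3 - c6 ^ 2 = 1728 * D) :
    ∃ s : ℝ, c6 ^ 2 * kC4 s 1 ^ 3 = c4 ^ 3 * kC6 s 1 ^ 2 ∧ 0 < c6 * kC6 s 1 := by
  have hc6 : 0 < c6 ^ 2 := by positivity
  have cT := RealC_cont_kC6
  have cG : Continuous fun s : ℝ => c6 ^ 2 * kC4 s 1 ^ 3 - c4 ^ 3 * kC6 s 1 ^ 2 := by
    have := RealC_cont_kC4
    fun_prop
  have hGe := RealC_G_eq (c4 := c4) (c6 := c6) (D := D) hrel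
  have hs0 : ∀ s : ℝ, kC6 s 1 = 0 → s ≠ 0 := by
    intro s hs h0
    rw [h0, RealC_kC6_zero] at hs
    exact one_ne_zero hs
  rcases lt_or_gt_of_ne hD with hD | hD <;> rcases lt_or_gt_of_ne h6 with h6 | h6
  · -- `D < 0`, `c6 < 0`
    obtain ⟨s, -, h1, h2⟩ := exists_zero_of_neg (T := fun s => kC6 s 1)
      (G := fun s => -(c6 ^ 2 * kC4 s 1 ^ 3 - c4 ^ 3 * kC6 s 1 ^ 2)) (p := -12) (q := 0)
      (by norm_num) cT.continuousOn cG.neg.continuousOn
      (kC6_neg_left le_rfl (by norm_num)) (by rw [RealC_kC6_zero]; norm_num)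
      (by
        show -(c6 ^ 2 * kC4 (-12 : ℝ) 1 ^ 3 - c4 ^ 3 * kC6 (-12 : ℝ) 1 ^ 2) < 0
        rw [hGe]
        have := mul_pos hc6 RealC_kD_neg12
        have h3 : 0 ≤ -D * kC6 (-12 : ℝ) 1 ^ 2 := mul_nonneg (by linarith) (sq_nonneg _)
        linarith)
      (by
        intro s hs h0
        show 0 < -(c6 ^ 2 * kC4 s 1 ^ 3 - c4 ^ 3 * kC6 s 1 ^ 2)
        have h0' : kC6 s 1 = 0 := h0
        rw [hGe, h0']
        have hs1 : -1 / 10 ≤ s := by
          by_contra hc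
          have := kC6_neg_left hs.1 (not_le.mp hc).le
          linarith
        have hs2 : s < 0 := lt_of_le_of_ne hs.2 (hs0 s h0')
        have := mul_pos_of_neg_of_neg (neg_lt_zero.mpr hc6) (kD_neg_left hs1 hs2)
        nlinarith)
    exact ⟨s, by linarith, mul_pos_of_neg_of_neg h6 h1⟩
  · -- `D < 0`, `0 < c6`
    obtain ⟨s, -, h1, h2⟩ := RealC_exists_zero_of_neg_right (T := fun s => -kC6 s 1)
      (G := fun s => -(c6 ^ 2 * kC4 s 1 ^ 3 - c4 ^ 3 * kC6 s 1 ^ 2)) (p := -1 / 10) (q := 0)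
      (by norm_num) cT.neg cG.neg
      (by rw [RealC_kC6_zero]; norm_num)
      (by have := kC6_neg_left (s := -1 / 10) (by norm_num) le_rfl; linarith)
      (by
        show -(c6 ^ 2 * kC4 (0 : ℝ) 1 ^ 3 - c4 ^ 3 * kC6 (0 : ℝ) 1 ^ 2) < 0
        rw [hGe, RealC_kC6_zero, RealC_kD_zero]
        linarith)
      (by
        intro s hs h0
        show 0 < -(c6 ^ 2 * kC4 s 1 ^ 3 - c4 ^ 3 * kC6 s 1 ^ 2)
        have h0' : kC6 s 1 = 0 := by
          have : -kC6 s 1 = 0 := h0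
          linarith
        rw [hGe, h0']
        have hs2 : s < 0 := lt_of_le_of_ne hs.2 (hs0 s h0')
        have := mul_pos_of_neg_of_neg (neg_lt_zero.mpr hc6) (kD_neg_left hs.1 hs2)
        nlinarith)
    exact ⟨s, by linarith, mul_pos h6 (by linarith)⟩
  · -- `0 < D`, `c6 < 0`
    obtain ⟨s, -, h1, h2⟩ := RealC_exists_zero_of_neg_right (T := fun s => kC6 s 1)
      (G := fun s => c6 ^ 2 * kC4 s 1 ^ 3 - c4 ^ 3 * kC6 s 1 ^ 2) (p := 0) (q := 1)
      (by norm_num) cT cG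
      (kC6_neg_right (by norm_num) le_rfl) (by rw [RealC_kC6_zero]; norm_num)
      (by
        show c6 ^ 2 * kC4 (1 : ℝ) 1 ^ 3 - c4 ^ 3 * kC6 (1 : ℝ) 1 ^ 2 < 0
        rw [hGe]
        have := mul_neg_of_pos_of_neg hc6 RealC_kD_one
        have h3 : 0 ≤ D * kC6 (1 : ℝ) 1 ^ 2 := mul_nonneg hD.le (sq_nonneg _)
        linarith)
      (by
        intro s hs h0
        show 0 < c6 ^ 2 * kC4 s 1 ^ 3 - c4 ^ 3 * kC6 s 1 ^ 2
        have h0' : kC6 s 1 = 0 := h0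
        rw [hGe, h0']
        have hs1 : s ≤ 1 / 100 := by
          by_contra hc
          have := kC6_neg_right (not_le.mp hc).le hs.2
          linarith
        have hs2 : 0 < s := lt_of_le_of_ne hs.1 (Ne.symm (hs0 s h0'))
        have := mul_pos hc6 (kD_pos_right hs2 hs1)
        nlinarith)
    exact ⟨s, by linarith, mul_pos_of_neg_of_neg h6 h1⟩
  · -- `0 < D`, `0 < c6`
    obtain ⟨s, -, h1, h2⟩ := exists_zero_of_neg (T := fun s => -kC6 s 1)
      (G := fun s => c6 ^ 2 * kC4 s 1 ^ 3 - c4 ^ 3 * kC6 s 1 ^ 2) (p := 0) (q := 1 / 100)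
      (by norm_num) cT.neg.continuousOn cG.continuousOn
      (by rw [RealC_kC6_zero]; norm_num)
      (by have := kC6_neg_right (s := 1 / 100) le_rfl (by norm_num); linarith)
      (by
        show c6 ^ 2 * kC4 (0 : ℝ) 1 ^ 3 - c4 ^ 3 * kC6 (0 : ℝ) 1 ^ 2 < 0
        rw [hGe, RealC_kC6_zero, RealC_kD_zero]
        linarith)
      (by
        intro s hs h0
        show 0 < c6 ^ 2 * kC4 s 1 ^ 3 - c4 ^ 3 * kC6 s 1 ^ 2
        have h0' : kC6 s 1 = 0 := by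
          have : -kC6 s 1 = 0 := h0
          linarith
        rw [hGe, h0']
        have hs2 : 0 < s := lt_of_le_of_ne hs.1 (Ne.symm (hs0 s h0'))
        have := mul_pos hc6 (kD_pos_right hs2 hs.2)
        nlinarith)
    exact ⟨s, by linarith, mul_pos h6 (by linarith)⟩

end Fermat.Agent.S52.I
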