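import Fermat.Agent.S52.I.RealC

/-! # S52 / I / RealD : real Klein points -/

set_option autoImplicit false

namespace Fermat.Agent.S52.I

open Fermat.Agent.S52

/-- real Klein point: `p = kC4 s 1`, `q = kC6 s 1 ≠ 0`, `p ≠ 0`; `ν := c6 p / (c4 q)`; `ν² p = c4`, `ν³ q = c6`; `ν³ = c6 / q > 0` so `ν > 0`;
`μ = √ν`, `(x,y) = (μ s, μ)`, `kC4 (μ s) μ = μ⁴ kC4 s 1`, `kC6 (μ s) μ = μ⁶ kC6 s 1` (`ring`); `kD` from `kC_relation`. -/
theorem exists_real_klein_point {c4 c6 D : ℝ} (h4 : c4 ≠ 0) (h6 : c6 ≠ 0) (hD : D ≠ 0)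
    (hrel : c4 ^ 3 - c6 ^ 2 = 1728 * D) :
    ∃ x y : ℝ, kC4 x y = c4 ∧ kC6 x y = c6 ∧ kD x y = D := by
  obtain ⟨s, hs, hpos⟩ := exists_real_param h6 hD hrel
  set P := kC4 s 1 with hP
  set Q := kC6 s 1 with hQ
  have hQ0 : Q ≠ 0 := by
    rintro h
    rw [h, mul_zero] at hpos
    exact lt_irrefl _ hpos
  set ν : ℝ := c6 * P / (c4 * Q) with hν
  have e1 : ν ^ 2 * P = c4 := by
    have : ν ^ 2 * P = c6 ^ 2 * P ^ 3 / (c4 ^ 2 * Q ^ 2) := by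
      rw [hν]; field_simp
    rw [this, hs]
    field_simp
  have e2 : ν ^ 3 * Q = c6 := by
    have : ν ^ 3 * Q = c6 * (c6 ^ 2 * P ^ 3) / (c4 ^ 3 * Q ^ 2) := by
      rw [hν]; field_simp
    rw [this, hs]
    field_simp
  have hν3 : 0 < ν ^ 3 := by
    have h1 : ν ^ 3 * Q ^ 2 = c6 * Q := by rw [← e2]; ring
    have h2 : 0 < Q ^ 2 := by positivity
    by_contra hneg
    have h3 : ν ^ 3 * Q ^ 2 ≤ 0 := mul_nonpos_of_nonpos_of_nonneg (not_lt.1 hneg) h2.le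
    rw [h1] at h3
    exact absurd hpos (not_lt.2 h3)
  have hνpos : 0 < ν := by
    by_contra hneg
    have h1 : ν ≤ 0 := not_lt.1 hneg
    have h2 : ν ^ 3 ≤ 0 := by
      have : ν ^ 3 = ν * ν ^ 2 := by ring
      rw [this]
      exact mul_nonpos_of_nonpos_of_nonneg h1 (sq_nonneg ν)
    exact absurd hν3 (not_lt.2 h2)
  set μ := Real.sqrt ν with hμ
  have hμ2 : μ ^ 2 = ν := Real.sq_sqrt hνpos.le
  have c4e : kC4 (μ * s) μ = c4 := by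
    have : kC4 (μ * s) μ = (μ ^ 2) ^ 2 * kC4 s 1 := by
      unfold kC4; ring
    rw [this, hμ2, ← hP, e1]
  have c6e : kC6 (μ * s) μ = c6 := by
    have : kC6 (μ * s) μ = (μ ^ 2) ^ 3 * kC6 s 1 := by
      unfold kC6; ring
    rw [this, hμ2, ← hQ, e2]
  refine ⟨μ * s, μ, c4e, c6e, ?_⟩
  have h := kC_relation (μ * s) μ
  rw [c4e, c6e, hrel] at h
  linarith

end Fermat.Agent.S52.I
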